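import Fermat.Agent.Row42.SwitchB.Reducible
import Fermat.Agent.Row42.Forms
import Mathlib.Data.Nat.Factorization.Basic
import Mathlib.Data.Nat.Factorization.Induction
import Mathlib.NumberTheory.Divisors
import Mathlib.Tactic.Linarith

/-!
# Some member of a progression in the mod three family has irreducible five-torsion

The members at `(l₀ + L k, m₀)` with reducible five-torsion and `k` in an interval of length `n³`
take `O(n²)` values of the discriminant, and the discriminant is injective for large `k`.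
-/

set_option autoImplicit false

namespace Fermat.Agent.Row42.SwitchB

open WeierstrassCurve

/-- A number whose multiplicities outside `M` are divisible by three is a cube up to `M²`. -/
theorem exists_cube_decomp (M : ℕ) : ∀ n : ℕ, n ≠ 0 →
    (∀ q : ℕ, q.Prime → ¬ q ∣ M → 3 ∣ n.factorization q) →
    ∃ c v : ℕ, c ∣ M ^ 2 ∧ n = c * v ^ 3 := by
  intro n
  induction n using Nat.recOnPrimeCoprime with
  | zero => exact fun h => absurd rfl h
  | prime_pow p a hp =>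
    intro _ h
    refine ⟨p ^ (a % 3), p ^ (a / 3), ?_, ?_⟩
    · by_cases hM : p ∣ M
      · exact (pow_dvd_pow p (by omega : a % 3 ≤ 2)).trans (pow_dvd_pow_of_dvd hM 2)
      · have h3 := h p hp hM
        rw [hp.factorization_pow, Finsupp.single_eq_same] at h3
        rw [show a % 3 = 0 by omega, pow_zero]
        exact one_dvd _
    · rw [← pow_mul, ← pow_add]; congr 1; omega
  | coprime a b ha hb hab iha ihb =>
    intro _ h
    have key : ∀ q, (a * b).factorization q = a.factorization q + b.factorization q := fun q => by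
      rw [Nat.factorization_mul (by omega) (by omega)]; rfl
    have h0 : ∀ q, q.Prime → ¬ q ∣ M → 3 ∣ a.factorization q ∧ 3 ∣ b.factorization q := by
      intro q hq hM
      have h3 := h q hq hM
      rw [key] at h3
      by_cases hqa : q ∣ a
      · have : b.factorization q = 0 := Nat.factorization_eq_zero_of_not_dvd fun hqb =>
          hq.not_dvd_one (hab.gcd_eq_one ▸ Nat.dvd_gcd hqa hqb)
        omega
      · have := Nat.factorization_eq_zero_of_not_dvd hqa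
        omega
    obtain ⟨c, v, hc, rfl⟩ := iha (by omega) fun q hq hM => (h0 q hq hM).1
    obtain ⟨c', v', hc', rfl⟩ := ihb (by omega) fun q hq hM => (h0 q hq hM).2
    refine ⟨c * c', v * v', ?_, by ring⟩
    exact (hab.coprime_mul_right.coprime_mul_right_right).mul_dvd_of_dvd_of_dvd hc hc'

/-- The second entry has multiplicities divisible by three outside `M`. -/
theorem three_dvd_factorization_snd {M a b g i j : ℕ} (hab : a.Coprime b) (ha : a ≠ 0) (hb : b ≠ 0)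
    (hj : ¬ 3 ∣ j) (hM : M ≠ 0) (hg : g ≠ 0) (h : a ^ i * b ^ j = M * g ^ 3) {q : ℕ}
    (hq : q.Prime) (hqM : ¬ q ∣ M) : 3 ∣ b.factorization q := by
  by_cases hqb : q ∣ b
  · have hqa : a.factorization q = 0 := Nat.factorization_eq_zero_of_not_dvd fun h' =>
      hq.not_dvd_one (hab.gcd_eq_one ▸ Nat.dvd_gcd h' hqb)
    have e := congrArg (fun n => n.factorization q) h
    simp only [Nat.factorization_mul (pow_ne_zero _ ha) (pow_ne_zero _ hb),
      Nat.factorization_mul hM (pow_ne_zero _ hg), Nat.factorization_pow, Finsupp.coe_add,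
      Pi.add_apply, Finsupp.coe_smul, Pi.smul_apply, smul_eq_mul, hqa,
      Nat.factorization_eq_zero_of_not_dvd hqM, mul_zero, zero_add] at e
    exact ((Nat.Coprime.dvd_mul_left (Nat.prime_three.coprime_iff_not_dvd.2 hj))).1 ⟨_, e⟩
  · rw [Nat.factorization_eq_zero_of_not_dvd hqb]
    exact dvd_zero 3

/-- A factor in a coprime factorisation inherits divisibility of multiplicities. -/
theorem three_dvd_factorization_left {p r q : ℕ} (hp : p ≠ 0) (hr : r ≠ 0) (hpr : p.Coprime r)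
    (hq : q.Prime) (h : 3 ∣ (p * r).factorization q) : 3 ∣ p.factorization q := by
  rw [Nat.factorization_mul hp hr, Finsupp.coe_add, Pi.add_apply] at h
  by_cases hqp : q ∣ p
  · rw [Nat.factorization_eq_zero_of_not_dvd fun hqr =>
      hq.not_dvd_one (hpr.gcd_eq_one ▸ Nat.dvd_gcd hqp hqr), add_zero] at h
    exact h
  · rw [Nat.factorization_eq_zero_of_not_dvd hqp]
    exact dvd_zero 3

/-- The bound for the first shape. -/
theorem abs_le_of_first {A B X : ℤ} (hA0 : A ≠ 0) (hF : |A ^ 2 + 10 * A * B + 5 * B ^ 2| ≤ X ^ 2)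
    (hP : |A * B ^ 5| ≤ X ^ 6) (hX : 0 < X) : |A| ≤ 500 * X ∧ |B| ≤ 500 * X := by
  obtain ⟨hF1, hF2⟩ := abs_le.1 hF
  have hAB : -(|A| * |B|) ≤ A * B := by rw [← abs_mul]; exact neg_abs_le _
  have ha := sq_abs A
  have hb := sq_abs B
  have hA1 : 1 ≤ |A| := Int.one_le_abs hA0
  rw [abs_mul, abs_pow] at hP
  have hB : |B| ≤ 2 * X := by
    by_contra hc
    push Not at hc
    by_cases hc' : 20 * |A| ≤ |B|
    · nlinarith
    · push Not at hc'
      have h6 : |B| ^ 6 ≤ 20 * (|A| * |B| ^ 5) := by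
        have := mul_le_mul_of_nonneg_right hc'.le (pow_nonneg (abs_nonneg B) 5)
        nlinarith
      have h6' : (2 * X) ^ 6 ≤ |B| ^ 6 := pow_le_pow_left₀ (by omega) hc.le 6
      have : 0 < X ^ 6 := pow_pos hX 6
      nlinarith
  refine ⟨?_, by omega⟩
  by_contra hc
  push Not at hc
  nlinarith

/-- The bound for the second shape. -/
theorem abs_le_of_second {A B X : ℤ} (hF : |A ^ 2 + 250 * A * B + 3125 * B ^ 2| ≤ X ^ 2)
    (hP : |A ^ 5 * B| ≤ X ^ 6) (hX : 0 < X) : |A| ≤ 500 * X ∧ |B| ≤ 500 * X := by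
  obtain ⟨hF1, hF2⟩ := abs_le.1 hF
  have hAB : -(|A| * |B|) ≤ A * B := by rw [← abs_mul]; exact neg_abs_le _
  have ha := sq_abs A
  have hb := sq_abs B
  rw [abs_mul, abs_pow] at hP
  have hB : |B| ≤ X := by
    by_contra hc
    push Not at hc
    by_cases hc' : |A| ≤ |B|
    · nlinarith
    · push Not at hc'
      have h5 : |B| ^ 5 ≤ |A| ^ 5 := pow_le_pow_left₀ (abs_nonneg B) hc'.le 5
      have h6 : |B| ^ 6 ≤ |A| ^ 5 * |B| := by
        have := mul_le_mul_of_nonneg_right h5 (abs_nonneg B)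
        nlinarith
      have h6' : X ^ 6 < |B| ^ 6 := pow_lt_pow_left₀ hc hX.le (by norm_num)
      linarith
  refine ⟨?_, by omega⟩
  by_contra hc
  push Not at hc
  nlinarith

/-- The cuspidal form increases for large first argument. -/
theorem cusp_lt {a b m l l' : ℤ} (hl : 6 * |a| * m ^ 2 + 8 * |b| * |m| ^ 3 + 1 ≤ l) (h : l < l') :
    cusp a b l m < cusp a b l' m := by
  have e : cusp a b l' m - cusp a b l m = (l' - l) * ((l' + l) * (l' ^ 2 + l ^ 2 - 6 * a * m ^ 2)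
      - 8 * b * m ^ 3) := by simp only [cusp]; ring
  have h1 : a * m ^ 2 ≤ |a| * m ^ 2 := mul_le_mul_of_nonneg_right (le_abs_self a) (sq_nonneg m)
  have h2 : b * m ^ 3 ≤ |b| * |m| ^ 3 := by rw [← abs_pow, ← abs_mul]; exact le_abs_self _
  have h0 : 0 ≤ 6 * |a| * m ^ 2 + 8 * |b| * |m| ^ 3 := by positivity
  have h3 : l ≤ l ^ 2 := by nlinarith
  have p1 : 0 ≤ |a| * m ^ 2 := by positivity
  have p2 : 0 ≤ |b| * |m| ^ 3 := by positivity
  have h4 : (1 : ℤ) ≤ l' ^ 2 + l ^ 2 - 6 * a * m ^ 2 := by linarith [sq_nonneg l']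
  have h5 : (l' + l) * 1 ≤ (l' + l) * (l' ^ 2 + l ^ 2 - 6 * a * m ^ 2) :=
    mul_le_mul_of_nonneg_left h4 (by linarith)
  have := mul_pos (sub_pos.2 h) (show 0 < (l' + l) * (l' ^ 2 + l ^ 2 - 6 * a * m ^ 2)
    - 8 * b * m ^ 3 by linarith)
  linarith

/-- The quartic bound on the forms. -/
theorem abs_forms_le {a b l m : ℤ} (hml : |m| ≤ l) :
    |cFour a b l m| ≤ (|a| + 4 * |b| + 6 * a ^ 2 + 4 * |a * b| + |3 * a ^ 3 - 4 * b ^ 2|) * l ^ 4 ∧
      |cusp a b l m| ≤ (1 + 6 * |a| + 8 * |b| + 3 * a ^ 2) * l ^ 4 := by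
  have hl0 : 0 ≤ l := (abs_nonneg m).trans hml
  have key : ∀ (z : ℤ) (i j : ℕ), i + j = 4 → |z * l ^ i * m ^ j| ≤ |z| * l ^ 4 := by
    intro z i j h
    rw [abs_mul, abs_mul, abs_pow, abs_pow, abs_of_nonneg hl0, ← h, pow_add, ← mul_assoc]
    exact mul_le_mul_of_nonneg_left (pow_le_pow_left₀ (abs_nonneg m) hml j)
      (mul_nonneg (abs_nonneg z) (pow_nonneg hl0 i))
  have k0 := abs_le.1 (key a 4 0 rfl)
  have k1 := abs_le.1 (key (4 * b) 3 1 rfl)
  have k2 := abs_le.1 (key (6 * a ^ 2) 2 2 rfl)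
  have k3 := abs_le.1 (key (4 * (a * b)) 1 3 rfl)
  have k4 := abs_le.1 (key (3 * a ^ 3 - 4 * b ^ 2) 0 4 rfl)
  have d1 := abs_le.1 (key 1 4 0 rfl)
  have d2 := abs_le.1 (key (6 * a) 2 2 rfl)
  have d3 := abs_le.1 (key (8 * b) 1 3 rfl)
  have d4 := abs_le.1 (key (3 * a ^ 2) 0 4 rfl)
  simp only [abs_mul, abs_of_nonneg (sq_nonneg a), abs_one, Nat.abs_ofNat]
    at k0 k1 k2 k3 d1 d2 d3 d4
  simp only [cFour, cusp, abs_le, abs_mul]
  ring_nf at k0 k1 k2 k3 k4 d1 d2 d3 d4 ⊢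
  refine ⟨⟨?_, ?_⟩, ?_, ?_⟩ <;> linarith [k0.1, k0.2, k1.1, k1.2, k2.1, k2.2, k3.1, k3.2,
    k4.1, k4.2, d1.1, d1.2, d2.1, d2.2, d3.1, d3.2, d4.1, d4.2]

/-- The size of the entries of the triple. -/
theorem sq_add_sq_le {A B X p r : ℤ} (hX : 0 ≤ X) (hA : |A| ≤ 500 * X) (hB : |B| ≤ 500 * X)
    (h : 4 * (p ^ 2 + r ^ 2) ^ 2 = 4 * (A ^ 2 + 22 * A * B + 125 * B ^ 2)) :
    p ^ 2 + r ^ 2 ≤ 7000 * X := by
  have hA2 : A ^ 2 ≤ (500 * X) ^ 2 := by
    rw [← sq_abs]; exact pow_le_pow_left₀ (abs_nonneg A) hA 2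
  have hB2 : B ^ 2 ≤ (500 * X) ^ 2 := by
    rw [← sq_abs B]; exact pow_le_pow_left₀ (abs_nonneg B) hB 2
  have h1 : 2 * (A * B) ≤ A ^ 2 + B ^ 2 := by linarith [two_mul_le_add_sq A B]
  have h2 : (p ^ 2 + r ^ 2) ^ 2 ≤ (7000 * X) ^ 2 := by
    rw [mul_pow] at hA2 hB2 ⊢
    linarith [sq_nonneg X]
  exact le_of_sq_le_sq h2 (by positivity)

/-- A natural number whose square is at most `7000 K l²` is at most `84 K K₃ n³`. -/
theorem small_entry {K K3 l : ℤ} {z n c : ℕ} (hK : 1 ≤ K) (hl : 0 ≤ l)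
    (hln : l ≤ K3 * (n : ℤ) ^ 3) (hc : (c : ℤ) = 84 * K * K3)
    (hz : (z : ℤ) ^ 2 ≤ 7000 * (K * l ^ 2)) : z ≤ c * n ^ 3 := by
  have h1 : 7000 * K ≤ 7056 * (K * K) := by
    have : K * 1 ≤ K * K := mul_le_mul_of_nonneg_left hK (by omega)
    linarith
  have hzl : (z : ℤ) ≤ 84 * K * l := by
    refine le_of_sq_le_sq (hz.trans ?_) (by positivity)
    calc 7000 * (K * l ^ 2) = 7000 * K * l ^ 2 := by ring
      _ ≤ 7056 * (K * K) * l ^ 2 := mul_le_mul_of_nonneg_right h1 (sq_nonneg l)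
      _ = (84 * K * l) ^ 2 := by ring
  have h2 : 84 * K * l ≤ 84 * K * (K3 * (n : ℤ) ^ 3) :=
    mul_le_mul_of_nonneg_left hln (by omega)
  have : (z : ℤ) ≤ (c : ℤ) * (n : ℤ) ^ 3 := by
    rw [hc, mul_assoc]; exact hzl.trans h2
  exact_mod_cast this

/-- The discriminant attached to `(p, r, τ, shape)`. -/
def discValue (x : (ℕ × ℕ) × Bool × Bool) : ℤ :=
  let B : ℤ := (if x.2.1 then (1 : ℤ) else -1) * (x.1.1 * x.1.2)
  let A : ℤ := (x.1.2 : ℤ) ^ 2 - x.1.1 ^ 2 - 11 * B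
  if x.2.2 then A * B ^ 5 else A ^ 5 * B

/-- Some member of the progression has irreducible five-torsion. -/
theorem exists_irreducible_member {c4 c6 Δ u l0 L m0 : ℤ} (hΔ : Δ ≠ 0) (hu : u ≠ 0) (hL : 0 < L)
    (W : ℕ → WeierstrassCurve ℤ) (hss : ∀ k, (W k).IsSemistableModel) (hodd : ∀ k, Odd (W k).Δ)
    (h4 : ∀ k : ℕ, u ^ 4 * (W k).c₄ = cFour c4 c6 (l0 + L * k) m0)
    (hD : ∀ k : ℕ, u ^ 12 * (W k).Δ = Δ * cusp c4 c6 (l0 + L * k) m0 ^ 3)
    (hg : ∀ k, ∃ g : ℤ, (W k).Δ = Δ * g ^ 3) :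
    ∃ k, (W k).ModRepIsIrreducible 5 := by
  classical
  by_contra hall
  push Not at hall
  set C0 : ℤ := 6 * |c4| * m0 ^ 2 + 8 * |c6| * |m0| ^ 3 + |m0| + 1 with hC0
  set k0 : ℕ := (C0 - l0).natAbs with hk0
  have hlarge : ∀ k : ℕ, k0 ≤ k → C0 ≤ l0 + L * k := by
    intro k hk
    have h1 : C0 - l0 ≤ (k : ℤ) :=
      (Int.le_natAbs).trans (by exact_mod_cast hk)
    nlinarith [mul_le_mul_of_nonneg_right (show 1 ≤ L by omega) (Int.natCast_nonneg k)]
  have hC01 : |m0| ≤ C0 ∧ 6 * |c4| * m0 ^ 2 + 8 * |c6| * |m0| ^ 3 + 1 ≤ C0 := by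
    constructor
    · have : 0 ≤ 6 * |c4| * m0 ^ 2 + 8 * |c6| * |m0| ^ 3 := by positivity
      linarith
    · linarith [abs_nonneg m0]
  set K1 : ℤ := |c4| + 4 * |c6| + 6 * c4 ^ 2 + 4 * |c4 * c6| + |3 * c4 ^ 3 - 4 * c6 ^ 2| with hK1
  set K2 : ℤ := 1 + 6 * |c4| + 8 * |c6| + 3 * c4 ^ 2 with hK2
  set K : ℤ := 1 + K1 + |Δ| * K2 ^ 3 with hK
  have hK10 : 0 ≤ K1 := by positivity
  have hK20 : 0 ≤ K2 := by positivity
  have hK0 : 1 ≤ K := by
    have : 0 ≤ |Δ| * K2 ^ 3 := by positivity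
    linarith
  set K3 : ℤ := |l0| + L * (k0 + 1) with hK3
  have hK30 : 0 < K3 := by positivity
  set c : ℕ := (84 * K * K3).toNat with hc
  have hc' : (c : ℤ) = 84 * K * K3 := Int.toNat_of_nonneg (by positivity)
  have hc0 : 0 < c := by
    have : (0 : ℤ) < 84 * K * K3 := by positivity
    omega
  clear_value C0 k0 K1 K2 K K3 c
  set M : ℕ := Δ.natAbs with hM
  have hM0 : M ≠ 0 := Int.natAbs_ne_zero.2 hΔ
  set d : ℕ := (M ^ 2).divisors.card with hd
  have hd0 : 0 < d := Finset.card_pos.2 ⟨1, Nat.one_mem_divisors.2 (pow_ne_zero 2 hM0)⟩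
  set n : ℕ := 16 * d ^ 2 * c ^ 2 + 1 with hn
  clear_value d n
  set P : Finset ℕ :=
    ((M ^ 2).divisors ×ˢ Finset.range (c * n + 1)).image fun x => x.1 * x.2 ^ 3 with hP
  set G : Finset ℤ :=
    ((P ×ˢ P) ×ˢ ((Finset.univ : Finset Bool) ×ˢ (Finset.univ : Finset Bool))).image discValue
    with hG
  have hmem : ∀ k ∈ Finset.Ico k0 (k0 + n ^ 3), (W k).Δ ∈ G := by
    intro k hk
    rw [Finset.mem_Ico] at hk
    set l : ℤ := l0 + L * k with hl
    have hml : |m0| ≤ l := hC01.1.trans (hlarge k hk.1)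
    have hl1 : 1 ≤ l := le_trans (by linarith [abs_nonneg m0,
      show 0 ≤ 6 * |c4| * m0 ^ 2 + 8 * |c6| * |m0| ^ 3 by positivity]) (hlarge k hk.1)
    clear_value l
    obtain ⟨A, B, hA, hB, hAB, hsq, hshape⟩ :=
      exists_pair_of_reducible (hodd k) (hss k) (hall k)
    obtain ⟨p, r, τ, hpr, hp0, hr0, hBe, hAe, hlast⟩ := exists_pyth hA hB hAB hsq
    obtain ⟨f1, f2⟩ := abs_forms_le (a := c4) (b := c6) hml
    rw [← hK1] at f1
    rw [← hK2] at f2
    have hu1 : 1 ≤ |u| := Int.one_le_abs hu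
    set X : ℤ := K * l ^ 2 with hX
    have hX0 : 0 < X := by positivity
    clear_value X
    have hl4 : 0 ≤ l ^ 4 := by positivity
    have hF : |(W k).c₄| ≤ X ^ 2 := by
      calc |(W k).c₄| = 1 * |(W k).c₄| := (one_mul _).symm
        _ ≤ |u| ^ 4 * |(W k).c₄| :=
          mul_le_mul_of_nonneg_right (one_le_pow₀ hu1) (abs_nonneg _)
        _ = |cFour c4 c6 l m0| := by rw [hl, ← h4 k, abs_mul, abs_pow]
        _ ≤ K1 * l ^ 4 := f1
        _ ≤ K ^ 2 * l ^ 4 := mul_le_mul_of_nonneg_right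
            (by nlinarith [show 0 ≤ |Δ| * K2 ^ 3 by positivity]) hl4
        _ = X ^ 2 := by rw [hX]; ring
    have hPr : |(W k).Δ| ≤ X ^ 6 := by
      calc |(W k).Δ| = 1 * |(W k).Δ| := (one_mul _).symm
        _ ≤ |u| ^ 12 * |(W k).Δ| :=
          mul_le_mul_of_nonneg_right (one_le_pow₀ hu1) (abs_nonneg _)
        _ = |Δ| * |cusp c4 c6 l m0| ^ 3 := by
          rw [← abs_pow u, ← abs_mul, hD k, abs_mul, abs_pow, hl]
        _ ≤ |Δ| * (K2 * l ^ 4) ^ 3 :=
          mul_le_mul_of_nonneg_left (pow_le_pow_left₀ (abs_nonneg _) f2 3) (abs_nonneg _)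
        _ = |Δ| * K2 ^ 3 * l ^ 12 := by ring
        _ ≤ K ^ 6 * l ^ 12 := mul_le_mul_of_nonneg_right
          (le_trans (by linarith) (le_self_pow₀ hK0 (by norm_num : (6 : ℕ) ≠ 0))) (by positivity)
        _ = X ^ 6 := by rw [hX]; ring
    have hbound : |A| ≤ 500 * X ∧ |B| ≤ 500 * X := by
      rcases hshape with ⟨e1, e2⟩ | ⟨e1, e2⟩ <;> rw [e1] at hPr <;> rw [e2] at hF
      · exact abs_le_of_first (fun h => by simp [h] at hA) hF hPr hX0
      · exact abs_le_of_second hF hPr hX0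
    have hsum : (p : ℤ) ^ 2 + (r : ℤ) ^ 2 ≤ 7000 * X :=
      sq_add_sq_le hX0.le hbound.1 hbound.2 hlast
    have hln : l ≤ K3 * (n : ℤ) ^ 3 := by
      have hk' : (k : ℤ) ≤ k0 + (n : ℤ) ^ 3 := by exact_mod_cast hk.2.le
      have hn1 : (1 : ℤ) ≤ (n : ℤ) ^ 3 := one_le_pow₀ (by omega)
      have h2 : (k0 : ℤ) * 1 ≤ k0 * (n : ℤ) ^ 3 :=
        mul_le_mul_of_nonneg_left hn1 (Int.natCast_nonneg k0)
      have h1 : (L : ℤ) * k ≤ L * ((k0 + 1) * (n : ℤ) ^ 3) :=
        mul_le_mul_of_nonneg_left (by linarith) hL.le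
      have h3 : |l0| * 1 ≤ |l0| * (n : ℤ) ^ 3 := mul_le_mul_of_nonneg_left hn1 (abs_nonneg l0)
      rw [hl, hK3]
      linarith [le_abs_self l0]
    have hsmall : ∀ z : ℕ, (z : ℤ) ^ 2 ≤ 7000 * X → z ≤ c * n ^ 3 := fun z hz =>
      small_entry hK0 (le_trans zero_le_one hl1) hln hc' (hX ▸ hz)
    obtain ⟨g, hgk⟩ := hg k
    have hg0 : g ≠ 0 := fun h => by
      have := hodd k
      rw [hgk, h] at this
      simp at this
    have hBpr : B.natAbs = p * r := by
      rw [hBe, Int.natAbs_mul, show (if τ then (1 : ℤ) else -1).natAbs = 1 by split_ifs <;> rfl,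
        one_mul, Int.natAbs_mul, Int.natAbs_natCast, Int.natAbs_natCast]
    have h3B : ∀ q : ℕ, q.Prime → ¬ q ∣ M → 3 ∣ B.natAbs.factorization q := by
      intro q hq hqM
      have hcop : A.natAbs.Coprime B.natAbs := Int.isCoprime_iff_gcd_eq_one.1 hAB
      have hA0 : A.natAbs ≠ 0 := fun h => by
        rw [Int.natAbs_eq_zero.1 h] at hA; simp at hA
      have hB0 : B.natAbs ≠ 0 := fun h => by
        rw [Int.natAbs_eq_zero.1 h] at hB; simp at hB
      rcases hshape with ⟨e1, -⟩ | ⟨e1, -⟩ <;>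
        have e := congrArg Int.natAbs (e1.symm.trans hgk) <;>
        simp only [Int.natAbs_mul, Int.natAbs_pow, ← hM] at e
      · exact three_dvd_factorization_snd (i := 1) (j := 5) hcop hA0 hB0 (by norm_num) hM0
          (Int.natAbs_ne_zero.2 hg0) (by rw [pow_one]; exact e) hq hqM
      · exact three_dvd_factorization_snd (i := 5) (j := 1) hcop hA0 hB0 (by norm_num) hM0
          (Int.natAbs_ne_zero.2 hg0) (by rw [pow_one]; exact e) hq hqM
    have hinP : ∀ z z' : ℕ, z ≠ 0 → z' ≠ 0 → z.Coprime z' → B.natAbs = z * z' →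
        (z : ℤ) ^ 2 ≤ 7000 * X → z ∈ P := by
      intro z z' hz hz' hzz he hsz
      obtain ⟨e, v, he', rfl⟩ := exists_cube_decomp M z hz fun q hq hqM =>
        three_dvd_factorization_left hz hz' hzz hq (he ▸ h3B q hq hqM)
      refine Finset.mem_image.2 ⟨(e, v), ?_, rfl⟩
      rw [Finset.mem_product, Nat.mem_divisors, Finset.mem_range, Nat.lt_succ_iff]
      refine ⟨⟨he', pow_ne_zero 2 hM0⟩, ?_⟩
      refine (Nat.pow_le_pow_iff_left (by norm_num : (3 : ℕ) ≠ 0)).1 ?_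
      have he0 : 0 < e := Nat.pos_of_ne_zero fun h => hz (by simp [h])
      calc v ^ 3 ≤ e * v ^ 3 := Nat.le_mul_of_pos_left _ he0
        _ ≤ c * n ^ 3 := hsmall _ hsz
        _ ≤ c ^ 3 * n ^ 3 := Nat.mul_le_mul_right _ (Nat.le_self_pow (by norm_num) c)
        _ = (c * n) ^ 3 := (mul_pow _ _ _).symm
    have hpP : p ∈ P := hinP p r hp0.ne' hr0.ne' hpr hBpr
      (le_trans (le_add_of_nonneg_right (sq_nonneg _)) hsum)
    have hrP : r ∈ P :=
      hinP r p hr0.ne' hp0.ne' hpr.symm (hBpr.trans (mul_comm p r))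
        (le_trans (le_add_of_nonneg_left (sq_nonneg _)) hsum)
    rw [hG, Finset.mem_image]
    rcases hshape with ⟨e1, -⟩ | ⟨e1, -⟩
    · refine ⟨((p, r), τ, true), ?_, ?_⟩
      · simp [hpP, hrP]
      · simp only [discValue, ← hBe, ← hAe, e1, if_true]
    · refine ⟨((p, r), τ, false), ?_, ?_⟩
      · simp [hpP, hrP]
      · simp only [discValue, ← hBe, ← hAe, e1]; rfl
  have hinj : Set.InjOn (fun k => (W k).Δ) (Finset.Ico k0 (k0 + n ^ 3) : Finset ℕ) := by
    intro i hi j hj e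
    rw [Finset.coe_Ico, Set.mem_Ico] at hi hj
    dsimp only at e
    have e' : Δ * cusp c4 c6 (l0 + L * i) m0 ^ 3 = Δ * cusp c4 c6 (l0 + L * j) m0 ^ 3 := by
      rw [← hD i, ← hD j, e]
    have e'' := (Odd.pow_inj (by decide : Odd 3)).1 (mul_left_cancel₀ hΔ e')
    rcases lt_trichotomy i j with h | h | h
    · exact absurd e'' (cusp_lt (hC01.2.trans (hlarge i hi.1))
        (by have : (i : ℤ) < j := by exact_mod_cast h
            nlinarith)).ne
    · exact h
    · exact absurd e'' (cusp_lt (hC01.2.trans (hlarge j hj.1))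
        (by have : (j : ℤ) < i := by exact_mod_cast h
            nlinarith)).ne'
  have hle := Finset.card_le_card_of_injOn (t := G) (fun k => (W k).Δ) hmem hinj
  rw [Nat.card_Ico, Nat.add_sub_cancel_left] at hle
  have hGc : G.card ≤ (d * (c * n + 1)) * (d * (c * n + 1)) * (2 * 2) := by
    refine Finset.card_image_le.trans ?_
    rw [Finset.card_product, Finset.card_product, Finset.card_product]
    have hPc : P.card ≤ d * (c * n + 1) := Finset.card_image_le.trans (by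
      rw [Finset.card_product, Finset.card_range, hd])
    simp only [Finset.card_univ, Fintype.card_bool]
    exact Nat.mul_le_mul_right _ (Nat.mul_le_mul hPc hPc)
  have hn1 : 1 ≤ n := by omega
  have hcn : c * n + 1 ≤ 2 * (c * n) := by
    have := Nat.mul_pos hc0 hn1
    omega
  have hfin : n ^ 3 ≤ 16 * d ^ 2 * c ^ 2 * n ^ 2 := by
    calc n ^ 3 ≤ (d * (c * n + 1)) * (d * (c * n + 1)) * (2 * 2) := hle.trans hGc
      _ ≤ (d * (2 * (c * n))) * (d * (2 * (c * n))) * (2 * 2) :=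
        Nat.mul_le_mul_right _ (Nat.mul_le_mul (Nat.mul_le_mul_left _ hcn)
          (Nat.mul_le_mul_left _ hcn))
      _ = 16 * d ^ 2 * c ^ 2 * n ^ 2 := by ring
  rw [pow_succ' n 2] at hfin
  have := Nat.le_of_mul_le_mul_right hfin (by positivity)
  omega

end Fermat.Agent.Row42.SwitchB
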