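import Fermat.Agent.Row42.Forms
import Fermat.Prelude.Def_FLTPrelim_Modularity
import Mathlib.AlgebraicGeometry.EllipticCurve.Affine.Point
import Mathlib.Algebra.Field.ZMod
import Mathlib.Tactic.LinearCombination
import Mathlib.Tactic.IntervalCases

/-!
# Traces at two and at five from the invariants

A model with odd discriminant and `c₄ = 16 · odd` has `a₂ = ±2`.  At five the trace is read off
the short model with the same invariants; every nonsingular pair of invariants modulo five has a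
member of the mod three family which is singular or has `a₅ ≢ 0, ±1 (mod 5)`.
-/

set_option autoImplicit false

namespace Fermat.Agent.Row42.SwitchB

open WeierstrassCurve

/-- The trace of Frobenius from the number of solutions of the equation. -/
theorem traceOfFrobenius_eq_count {p : ℕ} [Fact p.Prime] (E : WeierstrassCurve (ZMod p))
    (hΔ : E.Δ ≠ 0) :
    E.traceOfFrobenius = (p : ℤ) -
      (Nat.card {v : ZMod p × ZMod p // E.toAffine.Equation v.1 v.2} : ℤ) := by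
  classical
  have : E.IsElliptic := ⟨IsUnit.mk0 _ hΔ⟩
  rw [WeierstrassCurve.traceOfFrobenius, WeierstrassCurve.card, Nat.card_zmod,
    Nat.card_congr E.toAffine.pointEquiv,
    show Nat.card (WithZero {xy : ZMod p × ZMod p // E.toAffine.Equation xy.1 xy.2}) =
      Nat.card {xy : ZMod p × ZMod p // E.toAffine.Equation xy.1 xy.2} + 1 from Finite.card_option]
  push_cast
  ring

/-! ### At two -/

/-- The number of solutions over `𝔽₂` for a supersingular equation with `a₂ + a₄ = 1`. -/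
theorem count_two : ∀ a b : ZMod 2,
    (Finset.univ.filter fun v : ZMod 2 × ZMod 2 =>
      v.2 ^ 2 + v.2 = v.1 ^ 3 + a * v.1 ^ 2 + (1 + a) * v.1 + b).card = 4 * (1 - b.val) := by
  decide

theorem a₃_eq_one_of_Δ : ∀ a c d e : ZMod 2,
    (⟨0, a, c, d, e⟩ : WeierstrassCurve (ZMod 2)).Δ ≠ 0 → c = 1 := by decide

theorem a₄_eq_of_c₄ : ∀ a d s : ZMod 2, (s ^ 2 + a) ^ 2 - 3 * (d + s) ≠ 0 → d = 1 + a := by
  decide

/-- Odd discriminant and `c₄` sixteen times an odd number: `a₂ = ±2`. -/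
theorem apOfModel_two {W : WeierstrassCurve ℤ} (hΔ : ¬(2 : ℤ) ∣ W.Δ) (h16 : (16 : ℤ) ∣ W.c₄)
    (h32 : ¬(32 : ℤ) ∣ W.c₄) : W.apOfModel 2 = 2 ∨ W.apOfModel 2 = -2 := by
  have : Fact (Nat.Prime 2) := ⟨Nat.prime_two⟩
  have c2 : ∀ z : ℤ, ((z : ZMod 2) = 0 ↔ (2 : ℤ) ∣ z) := fun z => by
    rw [ZMod.intCast_zmod_eq_zero_iff_dvd]; rfl
  -- `a₁` is even
  have h1 : (2 : ℤ) ∣ W.a₁ := by
    refine Int.prime_two.dvd_of_dvd_pow (n := 4) ?_
    have e : W.a₁ ^ 4 = W.c₄ - 2 * (4 * W.a₁ ^ 2 * W.a₂ + 8 * W.a₂ ^ 2 - 24 * W.a₄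
        - 12 * W.a₁ * W.a₃) := by
      simp only [WeierstrassCurve.c₄, WeierstrassCurve.b₂, WeierstrassCurve.b₄]; ring
    rw [e]
    exact dvd_sub ((show (2 : ℤ) ∣ 16 by norm_num).trans h16) (Dvd.intro _ rfl)
  obtain ⟨t, ht⟩ := h1
  have hc : W.c₄ = 16 * ((t ^ 2 + W.a₂) ^ 2 - 3 * (W.a₄ + t * W.a₃)) := by
    simp only [WeierstrassCurve.c₄, WeierstrassCurve.b₂, WeierstrassCurve.b₄, ht]; ring
  set E := W.reductionMod 2 with hE
  have hEΔ : E.Δ ≠ 0 := by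
    rw [hE, WeierstrassCurve.reductionMod, WeierstrassCurve.map_Δ, eq_intCast, Ne, c2]
    exact hΔ
  have e1 : (W.a₁ : ZMod 2) = 0 := (c2 _).2 ⟨t, ht⟩
  have e3 : (W.a₃ : ZMod 2) = 1 := by
    refine a₃_eq_one_of_Δ (W.a₂ : ZMod 2) _ (W.a₄ : ZMod 2) (W.a₆ : ZMod 2) ?_
    convert hEΔ using 2
    ext <;> simp [hE, WeierstrassCurve.reductionMod, e1]
  have e4 : (W.a₄ : ZMod 2) = 1 + (W.a₂ : ZMod 2) := by
    have h : ¬ (2 : ℤ) ∣ (t ^ 2 + W.a₂) ^ 2 - 3 * (W.a₄ + t * W.a₃) := fun ⟨z, hz⟩ =>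
      h32 ⟨z, by rw [hc, hz]; ring⟩
    rw [← c2] at h
    push_cast at h
    rw [e3, mul_one] at h
    exact a₄_eq_of_c₄ _ _ _ h
  have hEq : ∀ x y : ZMod 2, E.toAffine.Equation x y ↔
      y ^ 2 + y = x ^ 3 + (W.a₂ : ZMod 2) * x ^ 2 + (1 + (W.a₂ : ZMod 2)) * x +
          (W.a₆ : ZMod 2) := by
    intro x y
    rw [Affine.equation_iff]
    simp only [hE, WeierstrassCurve.reductionMod, WeierstrassCurve.map, eq_intCast, e1, e3, e4,
      zero_mul, add_zero, one_mul]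
  rw [WeierstrassCurve.apOfModel, ← hE, traceOfFrobenius_eq_count E hEΔ,
    Nat.card_congr (Equiv.subtypeEquivRight
      (p := fun v : ZMod 2 × ZMod 2 => E.toAffine.Equation v.1 v.2) fun v => hEq v.1 v.2),
    Nat.card_eq_fintype_card, Fintype.card_subtype, count_two]
  have := ZMod.val_lt (W.a₆ : ZMod 2)
  interval_cases (W.a₆ : ZMod 2).val <;> simp

theorem count_two_zero : ∀ a b : ZMod 2,
    (Finset.univ.filter fun v : ZMod 2 × ZMod 2 =>
      v.2 ^ 2 + v.2 = v.1 ^ 3 + a * v.1 ^ 2 + a * v.1 + b).card = 2 := by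
  decide

theorem a₄_eq_of_c₄_zero : ∀ a d s : ZMod 2, (s ^ 2 + a) ^ 2 - 3 * (d + s) = 0 → d = a := by
  decide

/-- Odd discriminant and `32 ∣ c₄`: the trace at two vanishes. -/
theorem apOfModel_two_eq_zero {W : WeierstrassCurve ℤ} (hΔ : ¬(2 : ℤ) ∣ W.Δ)
    (h32 : (32 : ℤ) ∣ W.c₄) : W.apOfModel 2 = 0 := by
  have : Fact (Nat.Prime 2) := ⟨Nat.prime_two⟩
  have c2 : ∀ z : ℤ, ((z : ZMod 2) = 0 ↔ (2 : ℤ) ∣ z) := fun z => by
    rw [ZMod.intCast_zmod_eq_zero_iff_dvd]; rfl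
  obtain ⟨t, ht⟩ : (2 : ℤ) ∣ W.a₁ := by
    refine Int.prime_two.dvd_of_dvd_pow (n := 4) ?_
    have e : W.a₁ ^ 4 = W.c₄ - 2 * (4 * W.a₁ ^ 2 * W.a₂ + 8 * W.a₂ ^ 2 - 24 * W.a₄
        - 12 * W.a₁ * W.a₃) := by
      simp only [WeierstrassCurve.c₄, WeierstrassCurve.b₂, WeierstrassCurve.b₄]; ring
    rw [e]
    exact dvd_sub ((show (2 : ℤ) ∣ 32 by norm_num).trans h32) (Dvd.intro _ rfl)
  have hc : W.c₄ = 16 * ((t ^ 2 + W.a₂) ^ 2 - 3 * (W.a₄ + t * W.a₃)) := by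
    simp only [WeierstrassCurve.c₄, WeierstrassCurve.b₂, WeierstrassCurve.b₄, ht]; ring
  set E := W.reductionMod 2 with hE
  have hEΔ : E.Δ ≠ 0 := by
    rw [hE, WeierstrassCurve.reductionMod, WeierstrassCurve.map_Δ, eq_intCast, Ne, c2]
    exact hΔ
  have e1 : (W.a₁ : ZMod 2) = 0 := (c2 _).2 ⟨t, ht⟩
  have e3 : (W.a₃ : ZMod 2) = 1 := by
    refine a₃_eq_one_of_Δ (W.a₂ : ZMod 2) _ (W.a₄ : ZMod 2) (W.a₆ : ZMod 2) ?_
    convert hEΔ using 2
    ext <;> simp [hE, WeierstrassCurve.reductionMod, e1]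
  have e4 : (W.a₄ : ZMod 2) = (W.a₂ : ZMod 2) := by
    obtain ⟨z, hz⟩ := h32
    have h : (2 : ℤ) ∣ (t ^ 2 + W.a₂) ^ 2 - 3 * (W.a₄ + t * W.a₃) :=
      ⟨z, mul_left_cancel₀ (show (16 : ℤ) ≠ 0 by norm_num) (by rw [← hc, hz]; ring)⟩
    rw [← c2] at h
    push_cast at h
    rw [e3, mul_one] at h
    exact a₄_eq_of_c₄_zero _ _ _ h
  have hEq : ∀ x y : ZMod 2, E.toAffine.Equation x y ↔
      y ^ 2 + y = x ^ 3 + (W.a₂ : ZMod 2) * x ^ 2 + (W.a₂ : ZMod 2) * x + (W.a₆ : ZMod 2) := by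
    intro x y
    rw [Affine.equation_iff]
    simp only [hE, WeierstrassCurve.reductionMod, WeierstrassCurve.map, eq_intCast, e1, e3, e4,
      zero_mul, add_zero, one_mul]
  rw [WeierstrassCurve.apOfModel, ← hE, traceOfFrobenius_eq_count E hEΔ,
    Nat.card_congr (Equiv.subtypeEquivRight
      (p := fun v : ZMod 2 × ZMod 2 => E.toAffine.Equation v.1 v.2) fun v => hEq v.1 v.2),
    Nat.card_eq_fintype_card, Fintype.card_subtype, count_two_zero]
  rfl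

/-! ### At five -/

/-- The solutions of the short equation with invariants `A, B` over `𝔽₅`. -/
def countFive (A B : ZMod 5) : ℕ :=
  (Finset.univ.filter fun v : ZMod 5 × ZMod 5 => v.2 ^ 2 = v.1 ^ 3 - 27 * A * v.1 - 54 * B).card

theorem five_units : (36 : ZMod 5) ≠ 0 ∧ (216 : ZMod 5) ≠ 0 ∧ (46656 : ZMod 5) ≠ 0 := by decide

/-- The trace at five modulo five from the invariants modulo five. -/
theorem apOfModel_five {W : WeierstrassCurve ℤ} (hΔ : ¬(5 : ℤ) ∣ W.Δ) :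
    (W.apOfModel 5 : ZMod 5) = -(countFive (W.c₄ : ZMod 5) (W.c₆ : ZMod 5) : ZMod 5) := by
  have : Fact (Nat.Prime 5) := ⟨by decide⟩
  set E := W.reductionMod 5 with hE
  have hEΔ : E.Δ ≠ 0 := by
    rw [hE, WeierstrassCurve.reductionMod, WeierstrassCurve.map_Δ, eq_intCast]
    exact fun h => hΔ ((ZMod.intCast_zmod_eq_zero_iff_dvd _ 5).1 h)
  have eA : (W.c₄ : ZMod 5) = E.c₄ := by simp [hE, WeierstrassCurve.reductionMod]
  have eB : (W.c₆ : ZMod 5) = E.c₆ := by simp [hE, WeierstrassCurve.reductionMod]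
  obtain ⟨k36, k216, k46656⟩ := five_units
  let φ : ZMod 5 × ZMod 5 ≃ ZMod 5 × ZMod 5 :=
    { toFun := fun v => (36 * v.1 + 3 * E.b₂, 216 * v.2 + 108 * (E.a₁ * v.1 + E.a₃))
      invFun := fun v => ((v.1 - 3 * E.b₂) / 36,
        (v.2 - 108 * (E.a₁ * ((v.1 - 3 * E.b₂) / 36) + E.a₃)) / 216)
      left_inv := fun v => by
        refine Prod.ext ?_ ?_ <;> dsimp only
        · rw [add_sub_cancel_right, mul_div_cancel_left₀ _ k36]
        · rw [add_sub_cancel_right (36 * v.1), mul_div_cancel_left₀ _ k36, add_sub_cancel_right,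
            mul_div_cancel_left₀ _ k216]
      right_inv := fun v => by
        refine Prod.ext ?_ ?_ <;> dsimp only
        · rw [mul_div_cancel₀ _ k36, sub_add_cancel]
        · rw [mul_div_cancel₀ _ k216, sub_add_cancel] }
  have hiff : ∀ v : ZMod 5 × ZMod 5, E.toAffine.Equation v.1 v.2 ↔
      (φ v).2 ^ 2 = (φ v).1 ^ 3 - 27 * E.c₄ * (φ v).1 - 54 * E.c₆ := by
    intro v
    rw [Affine.equation_iff]
    show _ ↔ (216 * v.2 + 108 * (E.a₁ * v.1 + E.a₃)) ^ 2 = (36 * v.1 + 3 * E.b₂) ^ 3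
      - 27 * E.c₄ * (36 * v.1 + 3 * E.b₂) - 54 * E.c₆
    rw [← sub_eq_zero, ← mul_right_inj' k46656, mul_zero,
      ← sub_eq_zero (a := (216 * v.2 + 108 * (E.a₁ * v.1 + E.a₃)) ^ 2)]
    refine Eq.congr_left ?_
    simp only [WeierstrassCurve.c₄, WeierstrassCurve.c₆, WeierstrassCurve.b₂, WeierstrassCurve.b₄,
      WeierstrassCurve.b₆]
    ring
  rw [WeierstrassCurve.apOfModel, ← hE, traceOfFrobenius_eq_count E hEΔ,
    Nat.card_congr (φ.subtypeEquiv (q := fun v : ZMod 5 × ZMod 5 =>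
      v.2 ^ 2 = v.1 ^ 3 - 27 * E.c₄ * v.1 - 54 * E.c₆) hiff),
    Nat.card_eq_fintype_card, Fintype.card_subtype, ← eA, ← eB, countFive]
  push_cast
  rw [show (5 : ZMod 5) = 0 from rfl, zero_sub]

/-- The condition wanted at five on a member with invariants `A, B`. -/
def GoodAtFive (A B : ZMod 5) : Prop :=
  (countFive A B : ZMod 5) ≠ 0 ∧ (countFive A B : ZMod 5) ^ 2 ≠ 1

instance (A B : ZMod 5) : Decidable (GoodAtFive A B) := inferInstanceAs (Decidable (_ ∧ _))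

/-- Some point of the projective line over `𝔽₅` gives a member singular or good at five. -/
theorem exists_point_five : ∀ a b : ZMod 5, a ^ 3 - b ^ 2 ≠ 0 →
    (cusp a b 1 0 = 0 ∨ GoodAtFive (cFour a b 1 0) (cSix a b 1 0)) ∨
    ∃ x : ZMod 5, cusp a b x 1 = 0 ∨ GoodAtFive (cFour a b x 1) (cSix a b x 1) := by
  decide +kernel

end Fermat.Agent.Row42.SwitchB
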