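import Fermat.Agent.Row42.SwitchB.Member
import Fermat.Agent.Row42.SwitchB.Count
import Fermat.Agent.Row42.SwitchB.Local
import Mathlib.RingTheory.Coprime.Lemmas
import Mathlib.Tactic.Positivity

/-!
# The first switch for curves with good reduction at two

A semistable `W`, good at `2` with `c₄` not divisible by `32`, has a semistable member `W₁` of its
mod three family, good at `2` with `a₂ = ±2`, with the shape at five needed for lifting and with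
irreducible five-torsion.
-/

set_option autoImplicit false

namespace Fermat.Agent.Row42.SwitchB

open WeierstrassCurve

theorem crt {m n : ℤ} (h : IsCoprime m n) (a b : ℤ) : ∃ x, m ∣ x - a ∧ n ∣ x - b := by
  obtain ⟨s, t, e⟩ := h
  exact ⟨a * (t * n) + b * (s * m), ⟨(b - a) * s, by linear_combination a * e⟩,
    ⟨(a - b) * t, by linear_combination b * e⟩⟩

theorem five_units_1728 : (1728 : ZMod 5) ≠ 0 := by decide

theorem five_scale : ∀ x A B : ZMod 5, x ≠ 0 → GoodAtFive A B →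
    GoodAtFive (x ^ 4 * A) (x ^ 6 * B) := by decide +kernel

/-- The shape of a member at five. -/
theorem shape_at_five {W1 : WeierstrassCurve ℤ} (h : W1.IsGoodPrimeFor 5 →
    GoodAtFive (W1.c₄ : ZMod 5) (W1.c₆ : ZMod 5)) :
    ¬ W1.IsGoodPrimeFor 5 ∨
      (¬ (5 : ℤ) ∣ W1.apOfModel 5 ∧ ¬ (5 : ℤ) ∣ W1.apOfModel 5 ^ 2 - 1) := by
  by_cases hg : W1.IsGoodPrimeFor 5
  swap
  · exact Or.inl hg
  obtain ⟨h0, h1⟩ := h hg
  refine Or.inr ⟨fun hd => h0 ?_, fun hd => h1 ?_⟩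
  · have e : (W1.apOfModel 5 : ZMod 5) = 0 := (ZMod.intCast_zmod_eq_zero_iff_dvd _ 5).2 hd
    rwa [apOfModel_five hg, neg_eq_zero] at e
  · have e : ((W1.apOfModel 5 ^ 2 - 1 : ℤ) : ZMod 5) = 0 :=
      (ZMod.intCast_zmod_eq_zero_iff_dvd _ 5).2 hd
    push_cast at e
    rwa [apOfModel_five hg, neg_sq, sub_eq_zero] at e

/-- The switch from the two-adic data. -/
theorem exists_switch_of (W : WeierstrassCurve ℤ) (hW : W.IsSemistableModel)
    (hΔ2 : ¬(2 : ℤ) ∣ W.Δ) (u : ℤ) (hu2 : ∀ q : ℕ, q.Prime → (q : ℤ) ∣ u → q = 2)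
    (hu5 : (u : ZMod 5) ^ 4 = 1 ∧ (u : ZMod 5) ^ 6 = 1)
    (hu81 : IsCoprime u (81 * W.Δ))
    (hpick : ∀ Q : ℤ, Odd Q → ∃ m2 l2 : ℤ, (∀ q : ℕ, q.Prime → (q : ℤ) ∣ m2 → q = 2) ∧
      ∀ l : ℤ, (2 ^ 20 : ℤ) ∣ l - l2 → ∃ C4 C6 g : ℤ,
        cFour W.c₄ W.c₆ l (Q * m2) = u ^ 4 * C4 ∧ cSix W.c₄ W.c₆ l (Q * m2) = u ^ 6 * C6 ∧
          cusp W.c₄ W.c₆ l (Q * m2) = u ^ 4 * g ∧
          (32 : ℤ) ∣ C4 - 16 ∧ (32 : ℤ) ∣ C6 - 8 ∧ Odd g) :
    ∃ (W1 : WeierstrassCurve ℤ) (l m : ℤ),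
      (l ≠ 0 ∧ (W.IsGoodPrimeFor 3 → W1.IsGoodPrimeFor 3)) ∧
      cusp W.c₄ W.c₆ l m ≠ 0 ∧ u ^ 4 * W1.c₄ = cFour W.c₄ W.c₆ l m ∧
      u ^ 6 * W1.c₆ = cSix W.c₄ W.c₆ l m ∧ W1.Δ ≠ 0 ∧ W1.IsSemistableModel ∧
      W1.IsGoodPrimeFor 2 ∧ (W1.apOfModel 2 = 2 ∨ W1.apOfModel 2 = -2) ∧
      (¬ W1.IsGoodPrimeFor 5 ∨
        (¬ (5 : ℤ) ∣ W1.apOfModel 5 ∧ ¬ (5 : ℤ) ∣ W1.apOfModel 5 ^ 2 - 1)) ∧
      W1.ModRepIsIrreducible 5 := by
  classical
  have hΔ0 : W.Δ ≠ 0 := fun h => hΔ2 (h ▸ dvd_zero 2)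
  have : Fact (Nat.Prime 5) := ⟨by decide⟩
  have hΔodd : Odd W.Δ := Int.not_even_iff_odd.1 fun h => hΔ2 h.two_dvd
  have c5 : ∀ z : ℤ, ((z : ZMod 5) = 0 ↔ (5 : ℤ) ∣ z) := fun z =>
    ZMod.intCast_zmod_eq_zero_iff_dvd z 5
  have hu0 : u ≠ 0 := fun h => by
    have := hu2 3 Nat.prime_three (h ▸ dvd_zero _)
    omega
  set R : ℤ := 81 * W.Δ with hR
  have hRodd : Odd R := (show Odd (81 : ℤ) by decide).mul hΔodd
  -- the point modulo five
  obtain ⟨f, L5, l5, hf, hL5, hcl5, hfive⟩ : ∃ (f L5 : ℤ) (l5 : ℤ → ℤ), (f = 1 ∨ f = 5) ∧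
      (L5 = 1 ∨ (L5 = 5 ∧ IsCoprime R 5)) ∧
      (f = 5 → L5 = 5 ∧ ∀ m : ℤ, ¬(5 : ℤ) ∣ l5 m) ∧
      ∀ m l : ℤ, R ∣ m → L5 ∣ l - l5 (f * m) → (f = 5 ∨ ¬(5 : ℤ) ∣ f * m ∨ (5 : ℤ) ∣ W.Δ) →
        (5 : ℤ) ∣ W.Δ ∨ ((cusp W.c₄ W.c₆ l (f * m) : ℤ) : ZMod 5) = 0 ∨
          GoodAtFive ((cFour W.c₄ W.c₆ l (f * m) : ℤ) : ZMod 5)
            ((cSix W.c₄ W.c₆ l (f * m) : ℤ) : ZMod 5) := by
    by_cases h5 : (5 : ℤ) ∣ W.Δ
    · exact ⟨1, 1, fun _ => 0, Or.inl rfl, Or.inl rfl, fun h => by norm_num at h,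
        fun m l _ _ _ => Or.inl h5⟩
    have hcop : IsCoprime R 5 := by
      refine (Int.isCoprime_iff_gcd_eq_one).2 ?_
      rw [Int.gcd, show (5 : ℤ).natAbs = 5 from rfl]
      refine ((Nat.prime_five.coprime_iff_not_dvd).2 fun h => ?_).symm
      rcases (Nat.prime_iff_prime_int.1 Nat.prime_five).dvd_or_dvd
        (Int.natCast_dvd.2 h : ((5 : ℕ) : ℤ) ∣ 81 * W.Δ) with h | h
      · norm_num at h
      · exact h5 h
    have hne : (W.c₄ : ZMod 5) ^ 3 - (W.c₆ : ZMod 5) ^ 2 ≠ 0 := by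
      have e : ((1728 * W.Δ : ℤ) : ZMod 5) = ((W.c₄ ^ 3 - W.c₆ ^ 2 : ℤ) : ZMod 5) :=
        congrArg _ W.c_relation
      push_cast at e
      rw [← e]
      exact mul_ne_zero (show (1728 : ZMod 5) ≠ 0 from five_units_1728) fun h => h5 ((c5 _).1 h)
    rcases exists_point_five (W.c₄ : ZMod 5) (W.c₆ : ZMod 5) hne with hP | ⟨x, hP⟩
    · refine ⟨5, 5, fun _ => 1, Or.inr rfl, Or.inr ⟨rfl, hcop⟩,
        fun _ => ⟨rfl, fun _ => by norm_num⟩, fun m l _ hl _ => Or.inr ?_⟩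
      have e1 : (l : ZMod 5) = ((1 : ℤ) : ZMod 5) :=
        ((ZMod.intCast_eq_intCast_iff_dvd_sub 1 l 5).2 hl).symm
      have e2 : ((5 * m : ℤ) : ZMod 5) = 0 := (c5 _).2 (dvd_mul_right 5 m)
      rw [← eq_intCast (Int.castRingHom (ZMod 5)) (cusp _ _ _ _),
        ← eq_intCast (Int.castRingHom (ZMod 5)) (cFour _ _ _ _),
        ← eq_intCast (Int.castRingHom (ZMod 5)) (cSix _ _ _ _), map_cusp, map_cFour, map_cSix]
      simp only [eq_intCast, e1, e2, Int.cast_one]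
      exact hP
    · refine ⟨1, 5, fun m => (x.val : ℤ) * m, Or.inl rfl, Or.inr ⟨rfl, hcop⟩,
        fun h => by norm_num at h, fun m l _ hl hm => Or.inr ?_⟩
      have hm0 : ((1 * m : ℤ) : ZMod 5) ≠ 0 := by
        rcases hm with h | h | h
        · norm_num at h
        · exact fun h' => h ((c5 _).1 h')
        · exact absurd h h5
      have e1 : (l : ZMod 5) = x * ((1 * m : ℤ) : ZMod 5) := by
        rw [((ZMod.intCast_eq_intCast_iff_dvd_sub _ l 5).2 hl).symm]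
        push_cast
        rw [ZMod.natCast_zmod_val]
      rw [← eq_intCast (Int.castRingHom (ZMod 5)) (cusp _ _ _ _),
        ← eq_intCast (Int.castRingHom (ZMod 5)) (cFour _ _ _ _),
        ← eq_intCast (Int.castRingHom (ZMod 5)) (cSix _ _ _ _), map_cusp, map_cFour, map_cSix]
      simp only [eq_intCast, e1]
      generalize ((1 * m : ℤ) : ZMod 5) = t at hm0 ⊢
      rw [show cusp (W.c₄ : ZMod 5) (W.c₆ : ZMod 5) (x * t) t =
          t ^ 4 * cusp (W.c₄ : ZMod 5) (W.c₆ : ZMod 5) x 1 by simp only [cusp]; ring,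
        show cFour (W.c₄ : ZMod 5) (W.c₆ : ZMod 5) (x * t) t =
          t ^ 4 * cFour (W.c₄ : ZMod 5) (W.c₆ : ZMod 5) x 1 by simp only [cFour]; ring,
        show cSix (W.c₄ : ZMod 5) (W.c₆ : ZMod 5) (x * t) t =
          t ^ 6 * cSix (W.c₄ : ZMod 5) (W.c₆ : ZMod 5) x 1 by simp only [cSix]; ring]
      rcases hP with h | h
      · exact Or.inl (by rw [h, mul_zero])
      · exact Or.inr (five_scale t _ _ hm0 h)
  have hfodd : Odd f := by rcases hf with rfl | rfl <;> decide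
  obtain ⟨m2, l2, hm2, htwo⟩ := hpick (f * R) (hfodd.mul hRodd)
  set m0 : ℤ := f * R * m2 with hm0
  -- the progression
  have h2R : IsCoprime (2 ^ 20 : ℤ) R :=
    ((Int.prime_two.coprime_iff_not_dvd).2 fun h =>
      Int.not_even_iff_odd.2 hRodd (even_iff_two_dvd.2 h)).pow_left
  have hL5' : IsCoprime (2 ^ 20 * R : ℤ) L5 := by
    rcases hL5 with rfl | ⟨rfl, hcop⟩
    · exact isCoprime_one_right
    · exact IsCoprime.mul_left ((show IsCoprime (2 : ℤ) 5 from ⟨-2, 1, by norm_num⟩).pow_left) hcop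
  obtain ⟨la, hla2, hlaR⟩ := crt h2R l2 u
  obtain ⟨l0, hl0, hl05⟩ := crt hL5' la (l5 (f * (R * m2)))
  obtain ⟨L, hL, hL2, hLR, hL5d⟩ : ∃ L : ℤ, 0 < L ∧ (2 ^ 20 : ℤ) ∣ L ∧ R ∣ L ∧ L5 ∣ L := by
    refine ⟨|2 ^ 20 * R * L5|, abs_pos.2 ?_, ?_, ?_, ?_⟩
    · refine mul_ne_zero (mul_ne_zero (by norm_num) ?_) (by rcases hL5 with h | ⟨h, -⟩ <;> omega)
      exact mul_ne_zero (by norm_num) hΔ0
    all_goals rw [dvd_abs]
    · exact (dvd_mul_right _ _).mul_right _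
    · exact (dvd_mul_left _ _).mul_right _
    · exact dvd_mul_left _ _
  have main : ∀ k : ℕ, ∃ (W1 : WeierstrassCurve ℤ) (g : ℤ),
      u ^ 4 * W1.c₄ = cFour W.c₄ W.c₆ (l0 + L * k) m0 ∧
      u ^ 6 * W1.c₆ = cSix W.c₄ W.c₆ (l0 + L * k) m0 ∧
      u ^ 4 * g = cusp W.c₄ W.c₆ (l0 + L * k) m0 ∧ W1.Δ = W.Δ * g ^ 3 ∧
      Odd g ∧ (32 : ℤ) ∣ W1.c₄ - 16 ∧ R ∣ g - 1 ∧ R ∣ l0 + L * k - u ∧
      W1.IsSemistableModel := by
    intro k
    set l : ℤ := l0 + L * k with hl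
    have hlk : l - l0 = L * k := by rw [hl]; ring
    have hl2 : (2 ^ 20 : ℤ) ∣ l - l2 := by
      have h1 := dvd_add (dvd_add (hlk ▸ hL2.mul_right (k : ℤ))
        ((dvd_mul_right (2 ^ 20 : ℤ) R).trans hl0)) hla2
      rwa [show l - l0 + (l0 - la) + (la - l2) = l - l2 by ring] at h1
    have hlR : R ∣ l - u := by
      have h1 := dvd_add (dvd_add (hlk ▸ hLR.mul_right (k : ℤ))
        ((dvd_mul_left R (2 ^ 20 : ℤ)).trans hl0)) hlaR
      rwa [show l - l0 + (l0 - la) + (la - u) = l - u by ring] at h1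
    obtain ⟨C4, C6, g, e4, e6, eD, k4, k6, hgodd⟩ := htwo l hl2
    obtain ⟨d4, d6, dD⟩ := forms_congr (a := W.c₄) (b := W.c₆) (m := m0) (m' := 0) hlR
      (by rw [sub_zero, hm0]; exact (dvd_mul_left R f).mul_right m2)
    rw [e4, show cFour W.c₄ W.c₆ u 0 = u ^ 4 * W.c₄ by simp [cFour, mul_comm], ← mul_sub] at d4
    rw [e6, show cSix W.c₄ W.c₆ u 0 = u ^ 6 * W.c₆ by simp [cSix, mul_comm], ← mul_sub] at d6
    rw [eD, show cusp W.c₄ W.c₆ u 0 = u ^ 4 * 1 by simp [cusp], ← mul_sub] at dD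
    have r4 : R ∣ C4 - W.c₄ := (hu81.symm.pow_right (n := 4)).dvd_of_dvd_mul_left d4
    have r6 : R ∣ C6 - W.c₆ := (hu81.symm.pow_right (n := 6)).dvd_of_dvd_mul_left d6
    have rD : R ∣ g - 1 := (hu81.symm.pow_right (n := 4)).dvd_of_dvd_mul_left dD
    have h81 : (81 : ℤ) ∣ R := dvd_mul_right _ _
    obtain ⟨W1, hc4, hc6⟩ := exists_model W (h81.trans r4) (h81.trans r6) k4 k6
    have hΔ1 : W1.Δ = W.Δ * g ^ 3 := by
      have h := cFour_cube_sub_cSix_sq W.c₄ W.c₆ l m0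
      rw [e4, e6, eD, ← hc4, ← hc6, ← W.c_relation] at h
      have h' : u ^ 12 * (1728 * W1.Δ) = u ^ 12 * (1728 * (W.Δ * g ^ 3)) := by
        rw [W1.c_relation]; linear_combination h
      exact mul_left_cancel₀ (by norm_num) (mul_left_cancel₀ (pow_ne_zero 12 hu0) h')
    refine ⟨W1, g, by rw [hc4, ← e4], by rw [hc6, ← e6], eD.symm, hΔ1, hgodd, hc4 ▸ k4, rD, hlR, ?_⟩
    intro q hq hqΔ hqc
    rw [hΔ1] at hqΔ
    rw [hc4] at hqc
    have hqp : Prime (q : ℤ) := Nat.prime_iff_prime_int.1 hq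
    rcases eq_or_ne q 2 with rfl | hq2
    · exact Int.not_even_iff_odd.2 (hΔodd.mul hgodd.pow) (even_iff_two_dvd.2 hqΔ)
    by_cases hqR : (q : ℤ) ∣ R
    · have hqg : ¬(q : ℤ) ∣ g := fun hd => hqp.not_dvd_one (by
        have := dvd_sub hd (hqR.trans rD)
        rwa [sub_sub_cancel] at this)
      refine hW q hq ((hqp.dvd_or_dvd hqΔ).resolve_right fun h => hqg (hqp.dvd_of_dvd_pow h)) ?_
      have := dvd_sub hqc (hqR.trans r4)
      rwa [sub_sub_cancel] at this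
    have hqg : (q : ℤ) ∣ g := hqp.dvd_of_dvd_pow
      ((hqp.dvd_or_dvd hqΔ).resolve_left fun h => hqR (h.trans (dvd_mul_left _ _)))
    have := Fact.mk hq
    have cq : ∀ z : ℤ, ((z : ZMod q) = 0 ↔ (q : ℤ) ∣ z) := fun z =>
      ZMod.intCast_zmod_eq_zero_iff_dvd z q
    have hq3 : q ≠ 3 := fun h => hqR (by subst h; exact (show (3 : ℤ) ∣ 81 by norm_num).trans h81)
    have hqpr : ∀ p : ℕ, p.Prime → q ≠ p → (p : ZMod q) ≠ 0 := fun p hp hne h =>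
      hne ((Nat.prime_dvd_prime_iff_eq hq hp).1 ((ZMod.natCast_eq_zero_iff p q).1 h))
    have hX : (W.c₄ : ZMod q) ^ 3 - (W.c₆ : ZMod q) ^ 2 ≠ 0 := by
      have e : ((W.c₄ ^ 3 - W.c₆ ^ 2 : ℤ) : ZMod q) = ((1728 * W.Δ : ℤ) : ZMod q) :=
        congrArg _ W.c_relation.symm
      push_cast at e
      rw [e]
      refine mul_ne_zero ?_ fun h => hqR (((cq _).1 h).trans (dvd_mul_left _ _))
      rw [show (1728 : ZMod q) = ((2 : ℕ) : ZMod q) ^ 6 * ((3 : ℕ) : ZMod q) ^ 3 by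
        push_cast; norm_num]
      exact mul_ne_zero (pow_ne_zero _ (hqpr 2 Nat.prime_two hq2))
        (pow_ne_zero _ (hqpr 3 Nat.prime_three hq3))
    obtain ⟨hlz, hmz⟩ := eq_zero_of_cFour_cusp (a := (W.c₄ : ZMod q)) (b := (W.c₆ : ZMod q))
      (l := (l : ZMod q)) (m := (m0 : ZMod q))
      (by exact_mod_cast hqpr 2 Nat.prime_two hq2) (by exact_mod_cast hqpr 3 Nat.prime_three hq3)
      hX
      (by
        have h : ((cusp W.c₄ W.c₆ l m0 : ℤ) : ZMod q) = 0 :=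
          (cq _).2 (eD ▸ hqg.mul_left _)
        rwa [← eq_intCast (Int.castRingHom (ZMod q)), map_cusp] at h)
      (by
        have h : ((cFour W.c₄ W.c₆ l m0 : ℤ) : ZMod q) = 0 :=
          (cq _).2 (e4 ▸ hqc.mul_left _)
        rwa [← eq_intCast (Int.castRingHom (ZMod q)), map_cFour] at h)
    have hql : (q : ℤ) ∣ l := (cq _).1 hlz
    rcases hqp.dvd_or_dvd ((cq _).1 hmz) with h | h
    · rcases hqp.dvd_or_dvd h with h | h
      · -- `q` divides `f`, so it is five and prime to `l`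
        rcases hf with rfl | rfl
        · exact hqp.not_dvd_one h
        · obtain rfl : q = 5 := (Nat.prime_dvd_prime_iff_eq hq Nat.prime_five).1
            (Int.natCast_dvd_natCast.1 h)
          obtain ⟨hL55, hl5⟩ := hcl5 rfl
          subst hL55
          refine hl5 (5 * (R * m2)) ?_
          have h1 := dvd_add (hlk ▸ hL5d.mul_right (k : ℤ)) hl05
          have h2 := dvd_sub (show (5 : ℤ) ∣ l from hql) h1
          rwa [show l - (l - l0 + (l0 - l5 (5 * (R * m2)))) = l5 (5 * (R * m2)) by ring] at h2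
      · exact hqR h
    · exact hq2 (hm2 q hq h)
  choose W1 g h4 h6 hD hΔ1 hgodd h16 hg1 hlu hss using main
  obtain ⟨k, hk⟩ := exists_irreducible_member (c4 := W.c₄) (c6 := W.c₆) (Δ := W.Δ) (l0 := l0)
    (m0 := m0) hΔ0 hu0 hL W1 hss (fun k => hΔ1 k ▸ hΔodd.mul (hgodd k).pow) h4
    (fun k => by rw [← hD k, hΔ1 k]; ring) fun k => ⟨g k, hΔ1 k⟩
  have hgood2 : ¬(2 : ℤ) ∣ (W1 k).Δ := fun h =>
    Int.not_even_iff_odd.2 (hΔodd.mul (hgodd k).pow) (hΔ1 k ▸ even_iff_two_dvd.2 h)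
  have h3R : (3 : ℤ) ∣ R := (show (3 : ℤ) ∣ 81 by norm_num).trans (dvd_mul_right _ _)
  have hl0' : l0 + L * (k : ℤ) ≠ 0 := fun h => by
    have h1 := h3R.trans (hlu k)
    rw [h, zero_sub, dvd_neg] at h1
    exact absurd (hu2 3 Nat.prime_three h1) (by norm_num)
  have hgood3 : W.IsGoodPrimeFor 3 → (W1 k).IsGoodPrimeFor 3 := fun h3 h => by
    rw [hΔ1 k] at h
    rcases Int.prime_three.dvd_or_dvd h with h | h
    · exact h3 h
    · have h1 := dvd_sub (Int.prime_three.dvd_of_dvd_pow h) (h3R.trans (hg1 k))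
      rw [sub_sub_cancel] at h1
      norm_num at h1
  refine ⟨W1 k, l0 + L * k, m0, ⟨hl0', hgood3⟩, ?_, h4 k, h6 k, fun h => hgood2 (h ▸ dvd_zero 2),
    hss k, hgood2,
    apOfModel_two hgood2 ?_ ?_, shape_at_five fun hg5 => ?_, hk⟩
  · rw [← hD k]
    exact mul_ne_zero (pow_ne_zero 4 hu0) fun h => by
      have := hgodd k
      rw [h] at this
      exact absurd this (by decide)
  · have := dvd_add ((show (16 : ℤ) ∣ 32 by norm_num).trans (h16 k)) (dvd_refl 16)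
    rwa [sub_add_cancel] at this
  · intro h
    have := dvd_sub h (h16 k)
    rw [sub_sub_cancel] at this
    norm_num at this
  · have h5 : ¬(5 : ℤ) ∣ W.Δ := fun h => hg5 (hΔ1 k ▸ h.mul_right _)
    have hl5' : L5 ∣ l0 + L * k - l5 (f * (R * m2)) := by
      rw [show l0 + L * (k : ℤ) - l5 (f * (R * m2)) = l0 - l5 (f * (R * m2)) + L * k by ring]
      exact dvd_add hl05 (hL5d.mul_right _)
    have hnd : f = 5 ∨ ¬(5 : ℤ) ∣ f * (R * m2) ∨ (5 : ℤ) ∣ W.Δ := by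
      rcases hf with rfl | rfl
      · refine Or.inr (Or.inl fun h => ?_)
        rw [one_mul] at h
        have hp5 : Prime (5 : ℤ) := Nat.prime_iff_prime_int.1 Nat.prime_five
        rcases hp5.dvd_or_dvd h with h | h
        · rcases hp5.dvd_or_dvd h with h | h
          · norm_num at h
          · exact h5 h
        · exact absurd (hm2 5 Nat.prime_five h) (by norm_num)
      · exact Or.inl rfl
    have e := (hfive (R * m2) (l0 + L * k) (dvd_mul_right _ _) hl5' hnd).resolve_left h5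
    rw [show f * (R * m2) = m0 by rw [hm0]; ring, ← h4 k, ← h6 k, ← hD k] at e
    push_cast at e
    rw [hu5.1, hu5.2, one_mul, one_mul, one_mul] at e
    refine e.resolve_left fun h => hg5 ?_
    rw [hΔ1 k]
    exact (dvd_pow ((c5 _).1 h) three_ne_zero).mul_left _

/-- **The first switch in case B.** For a semistable `W` good at `2` with `32 ∤ c₄`: a semistable
member `W₁` of the mod three family, good at `2` with `a₂ = ±2`, multiplicative at `5` or with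
`a₅ ≢ 0, ±1 (mod 5)`, and with irreducible five-torsion. -/
theorem exists_switch_good (W : WeierstrassCurve ℤ) (hW : W.IsSemistableModel)
    (h2 : W.IsGoodPrimeFor 2) (h32 : ¬(32 : ℤ) ∣ W.c₄) :
    ∃ (W1 : WeierstrassCurve ℤ) (l m u : ℤ), u ≠ 0 ∧
      (l ≠ 0 ∧ (W.IsGoodPrimeFor 3 → W1.IsGoodPrimeFor 3)) ∧
      cusp W.c₄ W.c₆ l m ≠ 0 ∧ u ^ 4 * W1.c₄ = cFour W.c₄ W.c₆ l m ∧
      u ^ 6 * W1.c₆ = cSix W.c₄ W.c₆ l m ∧ W1.Δ ≠ 0 ∧ W1.IsSemistableModel ∧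
      W1.IsGoodPrimeFor 2 ∧ (W1.apOfModel 2 = 2 ∨ W1.apOfModel 2 = -2) ∧
      (¬ W1.IsGoodPrimeFor 5 ∨
        (¬ (5 : ℤ) ∣ W1.apOfModel 5 ∧ ¬ (5 : ℤ) ∣ W1.apOfModel 5 ^ 2 - 1)) ∧
      W1.ModRepIsIrreducible 5 := by
  have h2' : ¬(2 : ℤ) ∣ W.Δ := h2
  have h2p : ∀ (n q : ℕ), q.Prime → (q : ℤ) ∣ (2 : ℤ) ^ n → q = 2 := fun n q hq h =>
    (Nat.prime_dvd_prime_iff_eq hq Nat.prime_two).1
      (hq.dvd_of_dvd_pow (by exact_mod_cast h : q ∣ 2 ^ n))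
  by_cases h4 : Odd W.c₄
  · have hu81 : IsCoprime (4 : ℤ) (81 * W.Δ) := by
      rw [show (4 : ℤ) = 2 ^ 2 by norm_num]
      refine ((Int.prime_two.coprime_iff_not_dvd).2 fun h => ?_).pow_left
      rcases Int.prime_two.dvd_or_dvd h with h | h
      · norm_num at h
      · exact h2' h
    obtain ⟨s, t, hst⟩ : IsCoprime W.c₄ ((2 : ℤ) ^ 20) :=
      ((Int.prime_two.coprime_iff_not_dvd).2 fun h =>
        Int.not_even_iff_odd.2 h4 (even_iff_two_dvd.2 h)).symm.pow_right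
    have hs : Odd s := by
      refine Int.not_even_iff_odd.1 fun h => ?_
      have : (2 : ℤ) ∣ 1 := by
        rw [← hst]
        exact dvd_add (h.two_dvd.mul_right _) ((dvd_pow_self 2 (by norm_num)).mul_left t)
      norm_num at this
    have hx : (4 : ZMod 5) ^ 4 = 1 ∧ (4 : ZMod 5) ^ 6 = 1 := by decide
    obtain ⟨W1, l, m, h⟩ := exists_switch_of W hW h2' 4 (fun q hq h => h2p 2 q hq h)
      (by exact_mod_cast hx) hu81 fun Q hQ =>
        ⟨1, Q * s * -W.c₆, fun q hq h => absurd h (Nat.prime_iff_prime_int.1 hq).not_dvd_one,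
          fun l hl => two_adic_four h2' h4 (hQ.mul hs) hl
            ⟨Q * t, by linear_combination -Q * hst⟩⟩
    exact ⟨W1, l, m, 4, by norm_num, h⟩
  · obtain ⟨W1, l, m, h⟩ := exists_switch_of W hW h2' 1
      (fun q hq h => absurd h (Nat.prime_iff_prime_int.1 hq).not_dvd_one) (by simp)
      isCoprime_one_left fun Q hQ =>
        ⟨2 ^ 20, 1, h2p 20, fun l hl => ⟨_, _, _, (by rw [one_pow, one_mul]),
          (by rw [one_pow, one_mul]), (by rw [one_pow, one_mul]),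
          two_adic_one h2' h4 h32 hl (dvd_mul_left _ _)⟩⟩
    exact ⟨W1, l, m, 1, one_ne_zero, h⟩

end Fermat.Agent.Row42.SwitchB
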