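import Fermat.Agent.Row42.Goals
import Fermat.Agent.Row42.Galois
import Fermat.Agent.Row42.SwitchB.Main

/-!
# `SwitchB`
-/

set_option autoImplicit false

namespace Fermat.Agent.Row42

open WeierstrassCurve

/-- **The switch to a curve to which lifting at five applies.** -/
theorem switchB : SwitchB := by
  intro W hΔ hW h2 h3
  have h32 : ¬(32 : ℤ) ∣ W.c₄ := fun h => h3 <| by
    rw [SwitchB.apOfModel_two_eq_zero h2 h]; exact dvd_zero 3
  obtain ⟨W', l, m, u, hu, ⟨hl, hgood3⟩, -, e4, e6, hΔ', hW', h2', ha2, ha5, hirr⟩ :=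
    SwitchB.exists_switch_good W hW h2 h32
  exact ⟨W', ⟨hΔ', hW', h2', ha2, hirr, ha5⟩,
    congr_of_member hΔ hΔ' hl hu e4.symm e6.symm, hgood3⟩

end Fermat.Agent.Row42
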