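import Fermat.Agent.Row42.Forms
import Fermat.Prelude.Def_FLTPrelim_Modularity
import Mathlib.Algebra.Field.ZMod
import Mathlib.Tactic.LinearCombination
import Mathlib.Tactic.Ring

/-!
# Members of the mod three family: common zeros, two-adic values and models
-/

set_option autoImplicit false

namespace Fermat.Agent.Row42.SwitchB

open WeierstrassCurve

/-- `cFour` and `cusp` have no common zero over a field where `6 (a³ - b²) ≠ 0`. -/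
theorem eq_zero_of_cFour_cusp {F : Type*} [Field F] {a b l m : F} (h2 : (2 : F) ≠ 0)
    (h3 : (3 : F) ≠ 0) (hX : a ^ 3 - b ^ 2 ≠ 0) (hD : cusp a b l m = 0)
    (h4 : cFour a b l m = 0) : l = 0 ∧ m = 0 := by
  have h22 : (4 : F) ≠ 0 := by
    rw [show (4 : F) = 2 * 2 by norm_num]; exact mul_ne_zero h2 h2
  simp only [cusp] at hD
  simp only [cFour] at h4
  by_cases hm : m = 0
  · subst hm
    exact ⟨(pow_eq_zero_iff (n := 4) (by norm_num)).1 (by linear_combination hD), rfl⟩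
  exfalso
  have hC : b * l ^ 3 + 3 * a ^ 2 * l ^ 2 * m + 3 * a * b * l * m ^ 2 + b ^ 2 * m ^ 3 = 0 := by
    refine mul_left_cancel₀ (mul_ne_zero h22 hm) ?_
    linear_combination h4 - a * hD
  have hE : a ^ 2 * l ^ 3 + 3 * a * b * l ^ 2 * m + 3 * b ^ 2 * l * m ^ 2 + a ^ 2 * b * m ^ 3
      = 0 := by
    refine mul_left_cancel₀ (mul_ne_zero h3 hm) ?_
    linear_combination -(b * hD) + l * hC
  have hl : l * (a * l + b * m) = 0 := by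
    refine mul_left_cancel₀ (mul_ne_zero (mul_ne_zero h3 hX) hm) ?_
    linear_combination a ^ 2 * hC - b * hE
  have hm3 : m ^ 3 ≠ 0 := pow_ne_zero 3 hm
  have hm4 : m ^ 4 ≠ 0 := pow_ne_zero 4 hm
  have hb0 : b = 0 → False := by
    intro hb
    subst hb
    have ha : a ≠ 0 := fun h => hX (by rw [h]; ring)
    rcases mul_eq_zero.1 hl with h | h
    · subst h
      have : (3 : F) * a ^ 2 * m ^ 4 = 0 := by linear_combination -hD
      simp [h3, ha, hm] at this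
    · have hl0 : l = 0 := by
        have : a * l = 0 := by linear_combination h
        exact (mul_eq_zero.1 this).resolve_left ha
      subst hl0
      have : (3 : F) * a ^ 2 * m ^ 4 = 0 := by linear_combination -hD
      simp [h3, ha, hm] at this
  rcases mul_eq_zero.1 hl with h | h
  · subst h
    have : b ^ 2 * m ^ 3 = 0 := by linear_combination hC
    exact hb0 (by simpa [hm] using this)
  · have hy : a * l = -(b * m) := by linear_combination h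
    have e : b * (a * l) ^ 3 + 3 * a ^ 3 * m * (a * l) ^ 2 + 3 * a ^ 3 * b * m ^ 2 * (a * l)
        + a ^ 3 * b ^ 2 * m ^ 3 = 0 := by linear_combination a ^ 3 * hC
    rw [hy] at e
    have : b ^ 2 * (a ^ 3 - b ^ 2) * m ^ 3 = 0 := by linear_combination e
    exact hb0 (by simpa [hX, hm] using this)

/-- Congruences pass to the forms. -/
theorem forms_congr {N a b l m l' m' : ℤ} (hl : N ∣ l - l') (hm : N ∣ m - m') :
    N ∣ cFour a b l m - cFour a b l' m' ∧ N ∣ cSix a b l m - cSix a b l' m' ∧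
      N ∣ cusp a b l m - cusp a b l' m' := by
  simp only [← Ideal.mem_span_singleton] at hl hm ⊢
  rw [← Ideal.Quotient.mk_eq_mk_iff_sub_mem] at hl hm
  simp only [← Ideal.Quotient.mk_eq_mk_iff_sub_mem, map_cFour, map_cSix, map_cusp, hl, hm,
    and_self]

/-- The values at `λ (-c₆, c₄)`. -/
theorem forms_base (a b x : ℤ) :
    cFour a b (x * -b) (x * a) = x ^ 4 * (-3 * a * (a ^ 3 - b ^ 2) ^ 2) ∧
    cSix a b (x * -b) (x * a) = x ^ 6 * (-b * (a ^ 3 - b ^ 2) ^ 2 * (9 * a ^ 3 - b ^ 2)) ∧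
    cusp a b (x * -b) (x * a) = x ^ 4 * (-(a ^ 3 - b ^ 2) * (b ^ 2 + 3 * a ^ 3)) := by
  simp only [cFour, cSix, cusp]
  refine ⟨?_, ?_, ?_⟩ <;> ring

theorem zmod_four_odd : ∀ x : ZMod 4, (x * 2 + 1) ^ 2 = 1 := by decide

/-- For good reduction at two with `c₄` odd: `c₄ ≡ 1` and `c₆ ≡ -1 (mod 4)`. -/
theorem cast_four_of_odd {W : WeierstrassCurve ℤ} (h4 : Odd W.c₄) :
    (W.c₄ : ZMod 4) = 1 ∧ (W.c₆ : ZMod 4) = -1 := by
  have h1 : Odd W.a₁ := by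
    by_contra h
    obtain ⟨t, ht⟩ := (Int.not_odd_iff_even.1 h).two_dvd
    refine (Int.not_even_iff_odd.2 h4) (even_iff_two_dvd.2 ⟨8 * ((t ^ 2 + W.a₂) ^ 2
      - 3 * (W.a₄ + t * W.a₃)), ?_⟩)
    simp only [WeierstrassCurve.c₄, WeierstrassCurve.b₂, WeierstrassCurve.b₄, ht]
    ring
  obtain ⟨t, ht⟩ := h1
  have hb : (W.b₂ : ZMod 4) = 1 := by
    simp only [WeierstrassCurve.b₂, ht]
    push_cast
    rw [show (4 : ZMod 4) = 0 from rfl, zero_mul, add_zero, mul_comm (2 : ZMod 4), zmod_four_odd]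
  constructor
  · simp only [WeierstrassCurve.c₄]
    push_cast
    rw [hb, show (24 : ZMod 4) = 0 from rfl]
    ring
  · simp only [WeierstrassCurve.c₆]
    push_cast
    rw [hb, show (36 : ZMod 4) = 0 from rfl, show (216 : ZMod 4) = 0 from rfl]
    ring

/-- The two-adic values at `(l, m) ≡ λ (-c₆, c₄)`, `c₄` odd. -/
theorem two_adic_four {W : WeierstrassCurve ℤ} (hΔ : ¬(2 : ℤ) ∣ W.Δ) (h4 : Odd W.c₄)
    {x l m : ℤ} (hx : Odd x) (hl : (2 ^ 20 : ℤ) ∣ l - x * -W.c₆)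
    (hm : (2 ^ 20 : ℤ) ∣ m - x * W.c₄) :
    ∃ C4 C6 g : ℤ, cFour W.c₄ W.c₆ l m = 4 ^ 4 * C4 ∧ cSix W.c₄ W.c₆ l m = 4 ^ 6 * C6 ∧
      cusp W.c₄ W.c₆ l m = 4 ^ 4 * g ∧ (32 : ℤ) ∣ C4 - 16 ∧ (32 : ℤ) ∣ C6 - 8 ∧ Odd g := by
  obtain ⟨⟨z4, d4⟩, ⟨z6, d6⟩, ⟨zD, dD⟩⟩ := forms_congr (a := W.c₄) (b := W.c₆) hl hm
  obtain ⟨e4, e6, eD⟩ := forms_base W.c₄ W.c₆ x
  have hrel := W.c_relation
  set a := W.c₄ with ha
  set b := W.c₆ with hb
  set Δ := W.Δ with hΔdef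
  refine ⟨-16 * 2187 * x ^ 4 * a * Δ ^ 2 + 2 ^ 12 * z4,
    -729 * 8 * x ^ 6 * b * Δ ^ 2 * (a ^ 3 + 216 * Δ) + 2 ^ 8 * z6,
    -27 * x ^ 4 * Δ * (a ^ 3 - 432 * Δ) + 2 ^ 12 * zD, ?_, ?_, ?_, ?_, ?_, ?_⟩
  · rw [sub_eq_iff_eq_add] at d4
    rw [d4, e4, ← hrel]; ring
  · rw [sub_eq_iff_eq_add] at d6
    rw [d6, e6, show 9 * a ^ 3 - b ^ 2 = 8 * a ^ 3 + (a ^ 3 - b ^ 2) by ring, ← hrel]; ring
  · rw [sub_eq_iff_eq_add] at dD
    rw [dD, eD, show b ^ 2 + 3 * a ^ 3 = 4 * a ^ 3 - (a ^ 3 - b ^ 2) by ring, ← hrel]; ring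
  · have hΔodd : Odd Δ := Int.not_even_iff_odd.1 fun h => hΔ (even_iff_two_dvd.1 h)
    have ho : Odd (2187 * x ^ 4 * a * Δ ^ 2) :=
      (((show Odd (2187 : ℤ) by decide).mul hx.pow).mul h4).mul hΔodd.pow
    obtain ⟨j, hj⟩ := ho
    exact ⟨-j - 1 + 2 ^ 7 * z4, by linear_combination -16 * hj⟩
  · have hΔodd : Odd Δ := Int.not_even_iff_odd.1 fun h => hΔ (even_iff_two_dvd.1 h)
    obtain ⟨i, hi⟩ := (hx.pow : Odd (x ^ 3))
    obtain ⟨j, hj⟩ := hΔodd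
    obtain ⟨a4, b4⟩ := cast_four_of_odd h4
    rw [← ha] at a4
    rw [← hb] at b4
    have hi4 : ((x ^ 3 : ℤ) : ZMod 4) ^ 2 = 1 := by
      rw [hi]; push_cast; rw [mul_comm (2 : ZMod 4), zmod_four_odd]
    have hj4 : ((Δ : ℤ) : ZMod 4) ^ 2 = 1 := by
      rw [hj]; push_cast; rw [mul_comm (2 : ZMod 4), zmod_four_odd]
    obtain ⟨k, hk⟩ : (4 : ℤ) ∣ 729 * x ^ 6 * -b * Δ ^ 2 * (a ^ 3 + 216 * Δ) - 1 := by
      rw [show (4 : ℤ) = ((4 : ℕ) : ℤ) from rfl, ← ZMod.intCast_zmod_eq_zero_iff_dvd]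
      push_cast at hi4 ⊢
      rw [b4, a4, hj4, show (216 : ZMod 4) = 0 from rfl, show (729 : ZMod 4) = 1 from rfl,
        show (x : ZMod 4) ^ 6 = ((x : ZMod 4) ^ 3) ^ 2 by ring, hi4]
      ring
    exact ⟨k + 2 ^ 3 * z6, by linear_combination 8 * hk⟩
  · have hΔodd : Odd Δ := Int.not_even_iff_odd.1 fun h => hΔ (even_iff_two_dvd.1 h)
    have h1 : Odd (a ^ 3 - 432 * Δ) := h4.pow.sub_even
      (even_two.trans_dvd (by norm_num) |>.mul_right Δ)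
    exact ((((show Odd (-27 : ℤ) by decide).mul hx.pow).mul hΔodd).mul h1).add_even
      (Even.mul_right (by decide) zD)

/-- The two-adic values at `(l, m) ≡ (1, 0)`, `c₄` even. -/
theorem two_adic_one {W : WeierstrassCurve ℤ} (hΔ : ¬(2 : ℤ) ∣ W.Δ) (h4 : ¬ Odd W.c₄)
    (h32 : ¬(32 : ℤ) ∣ W.c₄) {l m : ℤ} (hl : (2 ^ 20 : ℤ) ∣ l - 1) (hm : (2 ^ 20 : ℤ) ∣ m) :
    (32 : ℤ) ∣ cFour W.c₄ W.c₆ l m - 16 ∧ (32 : ℤ) ∣ cSix W.c₄ W.c₆ l m - 8 ∧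
      Odd (cusp W.c₄ W.c₆ l m) := by
  obtain ⟨d4, d6, dD⟩ := forms_congr (a := W.c₄) (b := W.c₆) (m := m) (m' := 0) hl
    (by rwa [sub_zero])
  have t : (32 : ℤ) ∣ 2 ^ 20 := by norm_num
  rw [show cFour W.c₄ W.c₆ 1 0 = W.c₄ by simp [cFour]] at d4
  rw [show cSix W.c₄ W.c₆ 1 0 = W.c₆ by simp [cSix]] at d6
  rw [show cusp W.c₄ W.c₆ 1 0 = 1 by simp [cusp]] at dD
  obtain ⟨s, hs⟩ : (2 : ℤ) ∣ W.a₁ := by
    refine Int.prime_two.dvd_of_dvd_pow (n := 4) ?_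
    have e : W.a₁ ^ 4 = W.c₄ - 2 * (4 * W.a₁ ^ 2 * W.a₂ + 8 * W.a₂ ^ 2 - 24 * W.a₄
        - 12 * W.a₁ * W.a₃) := by
      simp only [WeierstrassCurve.c₄, WeierstrassCurve.b₂, WeierstrassCurve.b₄]; ring
    rw [e]
    exact dvd_sub (Int.not_odd_iff_even.1 h4).two_dvd (Dvd.intro _ rfl)
  have h3 : Odd W.a₃ := Int.not_even_iff_odd.1 fun h => hΔ (by
    obtain ⟨r, hr⟩ := h.two_dvd
    refine (ZMod.intCast_zmod_eq_zero_iff_dvd W.Δ 2).1 ?_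
    simp only [WeierstrassCurve.Δ, WeierstrassCurve.b₂, WeierstrassCurve.b₄, WeierstrassCurve.b₆,
      WeierstrassCurve.b₈, hs, hr]
    push_cast
    simp [show (2 : ZMod 2) = 0 from rfl, show (4 : ZMod 2) = 0 from rfl,
      show (8 : ZMod 2) = 0 from rfl, show (27 : ZMod 2) = 1 from rfl])
  obtain ⟨r, hr⟩ := h3
  obtain ⟨c, hc⟩ : (32 : ℤ) ∣ W.c₆ - 8 := by
    refine ⟨-2 * (s ^ 2 + W.a₂) ^ 3 + 9 * (s ^ 2 + W.a₂) * (W.a₄ + s * W.a₃)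
      - 27 * (r ^ 2 + r + W.a₆) - 7, ?_⟩
    simp only [WeierstrassCurve.c₆, WeierstrassCurve.b₂, WeierstrassCurve.b₄,
      WeierstrassCurve.b₆, hs, hr]
    ring
  obtain ⟨e, he⟩ : (32 : ℤ) ∣ W.c₄ - 16 := by
    have hc4 : W.c₄ = 16 * ((s ^ 2 + W.a₂) ^ 2 - 3 * (W.a₄ + s * W.a₃)) := by
      simp only [WeierstrassCurve.c₄, WeierstrassCurve.b₂, WeierstrassCurve.b₄, hs]; ring
    obtain ⟨i, hi⟩ | ⟨i, hi⟩ := Int.even_or_odd ((s ^ 2 + W.a₂) ^ 2 - 3 * (W.a₄ + s * W.a₃))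
    · exact absurd ⟨i, by rw [hc4, hi]; ring⟩ h32
    · exact ⟨i, by rw [hc4, hi]; ring⟩
  refine ⟨?_, ?_, ?_⟩
  · have := dvd_add (t.trans d4) ⟨e, he⟩
    rwa [sub_add_sub_cancel] at this
  · have := dvd_add (t.trans d6) ⟨c, hc⟩
    rwa [sub_add_sub_cancel] at this
  · obtain ⟨i, hi⟩ := dD
    exact ⟨2 ^ 19 * i, by linear_combination hi⟩

/-- The base model: `W` modulo `81`, `y² + y = x³` modulo `32`. -/
def baseModel (W : WeierstrassCurve ℤ) : WeierstrassCurve ℤ :=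
  ⟨1216 * W.a₁, 1216 * W.a₂, 1216 * W.a₃ + 1377, 1216 * W.a₄, 1216 * W.a₆⟩

/-- A model with prescribed invariants. -/
theorem exists_model (W : WeierstrassCurve ℤ) {C4 C6 : ℤ} (h4 : (81 : ℤ) ∣ C4 - W.c₄)
    (h6 : (81 : ℤ) ∣ C6 - W.c₆) (h4' : (32 : ℤ) ∣ C4 - 16) (h6' : (32 : ℤ) ∣ C6 - 8) :
    ∃ W1 : WeierstrassCurve ℤ, W1.c₄ = C4 ∧ W1.c₆ = C6 := by
  set W0 := baseModel W with hW0
  have m81 : W0.map (Int.castRingHom (ZMod 81)) = W.map (Int.castRingHom (ZMod 81)) := by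
    ext <;> simp [hW0, baseModel, show (1216 : ZMod 81) = 1 from rfl,
      show (1377 : ZMod 81) = 0 from rfl]
  have m32 : W0.map (Int.castRingHom (ZMod 32)) = ⟨0, 0, 1, 0, 0⟩ := by
    ext <;> simp [hW0, baseModel, show (1216 : ZMod 32) = 0 from rfl,
      show (1377 : ZMod 32) = 1 from rfl]
  have z81 : ∀ z w : ℤ, (z : ZMod 81) = w ↔ (81 : ℤ) ∣ w - z := fun z w => by
    rw [ZMod.intCast_eq_intCast_iff_dvd_sub]; rfl
  have z32 : ∀ z w : ℤ, (z : ZMod 32) = w ↔ (32 : ℤ) ∣ w - z := fun z w => by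
    rw [ZMod.intCast_eq_intCast_iff_dvd_sub]; rfl
  have u4 : (81 : ℤ) ∣ C4 - W0.c₄ := by
    have e := congrArg WeierstrassCurve.c₄ m81
    rw [WeierstrassCurve.map_c₄, WeierstrassCurve.map_c₄, eq_intCast, eq_intCast, z81] at e
    have := dvd_add h4 e
    rwa [sub_add_sub_cancel] at this
  have u6 : (27 : ℤ) ∣ C6 - W0.c₆ := by
    have e := congrArg WeierstrassCurve.c₆ m81
    rw [WeierstrassCurve.map_c₆, WeierstrassCurve.map_c₆, eq_intCast, eq_intCast, z81] at e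
    have := dvd_add h6 e
    rw [sub_add_sub_cancel] at this
    exact (show (27 : ℤ) ∣ 81 by norm_num).trans this
  have v4 : (16 : ℤ) ∣ C4 - W0.c₄ := by
    have e := congrArg WeierstrassCurve.c₄ m32
    rw [WeierstrassCurve.map_c₄, eq_intCast,
      show (⟨0, 0, 1, 0, 0⟩ : WeierstrassCurve (ZMod 32)).c₄ = ((0 : ℤ) : ZMod 32) from rfl,
      z32] at e
    have h := dvd_add ((show (16 : ℤ) ∣ 32 by norm_num).trans h4')
      (((show (16 : ℤ) ∣ 32 by norm_num).trans e).add (dvd_refl 16))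
    rwa [show C4 - 16 + (0 - W0.c₄ + 16) = C4 - W0.c₄ by ring] at h
  have v6 : (32 : ℤ) ∣ C6 - W0.c₆ := by
    have e := congrArg WeierstrassCurve.c₆ m32
    rw [WeierstrassCurve.map_c₆, eq_intCast,
      show (⟨0, 0, 1, 0, 0⟩ : WeierstrassCurve (ZMod 32)).c₆ = ((8 : ℤ) : ZMod 32) from rfl,
      z32] at e
    have := dvd_add h6' e
    rwa [sub_add_sub_cancel] at this
  have hb2 : (32 : ℤ) ∣ W0.b₂ :=
    ⟨1216 * W.a₁ ^ 2 * 38 + 4 * 38 * W.a₂,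
      by simp only [hW0, baseModel, WeierstrassCurve.b₂]; ring⟩
  obtain ⟨z, hz⟩ := (show IsCoprime (16 : ℤ) 81 from ⟨-5, 1, by norm_num⟩).mul_dvd v4 u4
  obtain ⟨w, hw⟩ := (show IsCoprime (32 : ℤ) 27 from ⟨11, -13, by norm_num⟩).mul_dvd v6 u6
  obtain ⟨y, hy⟩ := hb2
  refine ⟨⟨W0.a₁, W0.a₂, W0.a₃, W0.a₄ - 27 * z, W0.a₆ - (w + 72 * y * z)⟩, ?_, ?_⟩
  · simp only [WeierstrassCurve.c₄, WeierstrassCurve.b₂, WeierstrassCurve.b₄] at hz ⊢
    linear_combination -hz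
  · simp only [WeierstrassCurve.c₆, WeierstrassCurve.b₂, WeierstrassCurve.b₄,
      WeierstrassCurve.b₆] at hw hy ⊢
    linear_combination -hw - 1944 * z * hy

end Fermat.Agent.Row42.SwitchB
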