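import Fermat.Agent.X015.Reducible
import Fermat.Agent.EllTorsion.Count
import Fermat.Prelude.Def_FLTPrelim_ModularRep
import Mathlib.Data.Rat.Lemmas
import Mathlib.RingTheory.Int.Basic
import Mathlib.RingTheory.Coprime.Lemmas
import Mathlib.Tactic.LinearCombination

/-!
# Semistable models with reducible five-torsion

For a semistable model with odd discriminant and reducible five-torsion, the parameter of the line
gives coprime odd integers `A, B` with `A² + 22 A B + 125 B²` a square and `Δ = A B⁵` or `A⁵ B`.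
The Pythagorean parametrisation of the square gives `B = p r`, `A = r² - p² - 11 B` up to sign.
-/

set_option autoImplicit false

namespace Fermat.Agent.Row42.SwitchB

open WeierstrassCurve

local notation "Qb" => AlgebraicClosure ℚ

theorem zmod_eight_aux : ∀ i j : ZMod 8,
    (2 * i + 1) ^ 2 + 4 * (2 * i + 1) * (2 * j + 1) - (2 * j + 1) ^ 2 ≠ 0 := by decide

/-- The second factor of `c₆` does not vanish at odd arguments. -/
theorem odd_sq_add {a b : ℤ} (ha : Odd a) (hb : Odd b) :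
    a ^ 2 + 4 * a * b - b ^ 2 ≠ 0 := by
  obtain ⟨i, rfl⟩ := ha
  obtain ⟨j, rfl⟩ := hb
  intro h
  refine zmod_eight_aux i j ?_
  have h' := congrArg (fun z : ℤ => (z : ZMod 8)) h
  push_cast at h'
  exact h'

/-- The parameter of a semistable model with odd discriminant and reducible five-torsion. -/
theorem exists_pair_of_reducible {W : WeierstrassCurve ℤ} (hodd : Odd W.Δ)
    (hss : W.IsSemistableModel) (hred : ¬ W.ModRepIsIrreducible 5) :
    ∃ A B : ℤ, Odd A ∧ Odd B ∧ IsCoprime A B ∧ IsSquare (A ^ 2 + 22 * A * B + 125 * B ^ 2) ∧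
      ((W.Δ = A * B ^ 5 ∧ W.c₄ = A ^ 2 + 10 * A * B + 5 * B ^ 2) ∨
        (W.Δ = A ^ 5 * B ∧ W.c₄ = A ^ 2 + 250 * A * B + 3125 * B ^ 2)) := by
  have hΔ0 : W.Δ ≠ 0 := fun h => by rw [h] at hodd; exact absurd hodd (by decide)
  set E := W.map (Int.castRingHom ℚ) with hE
  have hEΔ : E.Δ ≠ 0 := by simp [hE, hΔ0]
  have : E.IsElliptic := ⟨isUnit_iff_ne_zero.2 hEΔ⟩
  obtain ⟨s, hs0, hs⟩ := X015.exists_param_five E.toAffine hEΔ
    (EllTorsion.natCard_torsionBy_baseChange E Qb 5 (by norm_num)) hred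
  set a : ℤ := s.num with ha
  set b : ℤ := (s.den : ℤ) with hb
  have hb0 : b ≠ 0 := by rw [hb]; exact_mod_cast s.den_nz
  have hab : IsCoprime a b := by
    rw [Int.isCoprime_iff_gcd_eq_one, hb, Int.gcd, Int.natAbs_natCast]
    exact s.reduced
  set q : ℤ := a ^ 2 + 10 * a * b + 5 * b ^ 2 with hq
  have key : W.c₄ ^ 3 * (a * b ^ 5) = W.Δ * q ^ 3 := by
    have e : s * (b : ℚ) = a := by rw [ha, hb]; exact_mod_cast Rat.mul_den_eq_num s
    have h : (W.c₄ : ℚ) ^ 3 * s = (W.Δ : ℚ) * (s ^ 2 + 10 * s + 5) ^ 3 := by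
      simpa [hE] using hs
    have h' : (W.c₄ : ℚ) ^ 3 * (a * (b : ℚ) ^ 5) =
        W.Δ * ((a : ℚ) ^ 2 + 10 * a * b + 5 * (b : ℚ) ^ 2) ^ 3 := by
      rw [← e]; linear_combination (b : ℚ) ^ 6 * h
    exact_mod_cast h'
  have ha0 : a ≠ 0 := by rw [ha]; exact Rat.num_ne_zero.2 hs0
  have hq0 : q ≠ 0 := by
    intro h
    rw [h] at key
    have hc : W.c₄ = 0 := by simpa [ha0, hb0] using key
    have h' : b ^ 2 * 5 = -(a * (a + 10 * b)) := by rw [hq] at h; linear_combination h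
    have h5 : a ∣ 5 := (hab.pow_right (n := 2)).dvd_of_dvd_mul_left
      (h' ▸ (dvd_mul_right a _).neg_right)
    have hb1 : b ∣ a ^ 2 := ⟨-(10 * a + 5 * b), by rw [hq] at h; linear_combination h⟩
    have hb2 : b = 1 ∨ b = -1 :=
      Int.isUnit_iff.1 ((hab.symm.pow_right (n := 2)).isUnit_of_dvd' dvd_rfl hb1)
    have h5' : a.natAbs ∣ 5 := by exact_mod_cast Int.natAbs_dvd_natAbs.2 h5
    rw [hq] at h
    rcases (Nat.dvd_prime (by decide : Nat.Prime 5)).1 h5' with h1 | h1 <;>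
      rcases Int.natAbs_eq a with h2 | h2 <;> rcases hb2 with hb2 | hb2 <;>
        rw [h1] at h2 <;> rw [h2, hb2] at h <;> norm_num at h
  have hc0 : W.c₄ ≠ 0 := fun h => by simp [h, hΔ0, hq0] at key
  have hcop : IsCoprime W.c₄ W.Δ := by
    rw [Int.isCoprime_iff_gcd_eq_one]
    refine Nat.coprime_of_dvd fun p hp h1 h2 => ?_
    exact hss p hp (Int.natCast_dvd.2 h2) (Int.natCast_dvd.2 h1)
  -- `c₄` divides `q`
  obtain ⟨e, he⟩ : W.c₄ ∣ q := by
    refine (Int.pow_dvd_pow_iff (by norm_num : (3 : ℕ) ≠ 0)).1 ?_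
    exact (hcop.pow_left (m := 3)).dvd_of_dvd_mul_left ⟨a * b ^ 5, key.symm⟩
  have he3 : a * b ^ 5 = W.Δ * e ^ 3 := by
    refine mul_left_cancel₀ (pow_ne_zero 3 hc0) ?_
    rw [key, he]; ring
  have heb : IsCoprime e b := by
    have : IsCoprime q b := by
      rw [hq, show a ^ 2 + 10 * a * b + 5 * b ^ 2 = a ^ 2 + b * (10 * a + 5 * b) by ring]
      exact (hab.pow_left (m := 2)).add_mul_left_left _
    exact this.of_isCoprime_of_dvd_left ⟨W.c₄, by rw [he]; ring⟩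
  have hea : e ^ 3 ∣ a :=
    ((heb.pow_left (m := 3)).pow_right (n := 5)).dvd_of_dvd_mul_right ⟨W.Δ, by rw [he3]; ring⟩
  have he5 : e ∣ 5 := by
    have h1 : e ∣ a := (dvd_pow_self e three_ne_zero).trans hea
    have h2 : e ∣ 5 * b ^ 2 := by
      have : e ∣ q - a * (a + 10 * b) := dvd_sub ⟨W.c₄, by rw [he]; ring⟩ (h1.mul_right _)
      rwa [show q - a * (a + 10 * b) = 5 * b ^ 2 by rw [hq]; ring] at this
    exact (heb.pow_right (n := 2)).dvd_of_dvd_mul_right h2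
  -- parity
  have heodd : Odd e := by
    rcases Int.even_or_odd e with h | h
    · exact absurd ((even_iff_two_dvd.1 h).trans he5) (by decide)
    · exact h
  obtain ⟨haodd, hb5⟩ := Int.odd_mul.1 (he3 ▸ hodd.mul heodd.pow : Odd (a * b ^ 5))
  have hbodd : Odd b := (Int.odd_pow' (by norm_num)).1 hb5
  set h : ℤ := a ^ 2 + 4 * a * b - b ^ 2 with hh
  have hh0 : h ≠ 0 := odd_sq_add haodd hbodd
  have hsq : W.c₆ ^ 2 * e ^ 3 = h ^ 2 * (a ^ 2 + 22 * a * b + 125 * b ^ 2) := by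
    have h1 := W.c_relation
    have h2 : q ^ 3 - 1728 * (a * b ^ 5) = h ^ 2 * (a ^ 2 + 22 * a * b + 125 * b ^ 2) := by
      rw [hq, hh]; ring
    rw [he, he3] at h2
    linear_combination h2 + e ^ 3 * h1
  have hepos : 0 ≤ e := by
    by_contra hneg
    have hz2 : 0 < a ^ 2 + 22 * a * b + 125 * b ^ 2 := by
      have : 0 < b ^ 2 := by positivity
      nlinarith [sq_nonneg (a + 11 * b)]
    have : e ^ 3 ≤ 0 := le_of_lt (Odd.pow_neg (by decide) (lt_of_not_ge hneg))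
    have hl : W.c₆ ^ 2 * e ^ 3 ≤ 0 := mul_nonpos_of_nonneg_of_nonpos (sq_nonneg _) this
    have hr : 0 < h ^ 2 * (a ^ 2 + 22 * a * b + 125 * b ^ 2) := mul_pos (by positivity) hz2
    linarith
  have hsquare : ∀ z : ℤ, h ^ 2 * z = W.c₆ ^ 2 → IsSquare z := by
    intro z hz
    obtain ⟨w, hw⟩ := (Int.pow_dvd_pow_iff (by norm_num : (2 : ℕ) ≠ 0)).1 ⟨z, hz.symm⟩
    refine ⟨w, mul_left_cancel₀ (pow_ne_zero 2 hh0) ?_⟩
    rw [hz, hw]; ring
  have he5' : e = 1 ∨ e = 5 := by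
    have h5' : e.natAbs ∣ 5 := by exact_mod_cast Int.natAbs_dvd_natAbs.2 he5
    rcases (Nat.dvd_prime (by decide : Nat.Prime 5)).1 h5' with h1 | h1 <;> omega
  rcases he5' with rfl | rfl
  · refine ⟨a, b, haodd, hbodd, hab, hsquare _ (by rw [← hsq]; ring), Or.inl ⟨?_, ?_⟩⟩
    · linear_combination -he3
    · rw [hq] at he; linear_combination -he
  · obtain ⟨c, hc⟩ := hea
    rw [hc] at haodd hab he3
    refine ⟨b, c, hbodd, (Int.odd_mul.1 haodd).2, (hab.of_mul_left_right).symm,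
      hsquare _ ?_, Or.inr ⟨?_, ?_⟩⟩
    · rw [hc] at hsq
      refine mul_left_cancel₀ (show (125 : ℤ) ≠ 0 by norm_num) ?_
      linear_combination -hsq
    · refine mul_left_cancel₀ (show (125 : ℤ) ≠ 0 by norm_num) ?_
      linear_combination -he3
    · refine mul_left_cancel₀ (show (5 : ℤ) ≠ 0 by norm_num) ?_
      rw [hq, hc] at he
      linear_combination -he

/-- The Pythagorean parametrisation of the square. -/
theorem exists_pyth {A B : ℤ} (hA : Odd A) (hB : Odd B) (hAB : IsCoprime A B)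
    (hsq : IsSquare (A ^ 2 + 22 * A * B + 125 * B ^ 2)) :
    ∃ (p r : ℕ) (τ : Bool), p.Coprime r ∧ 0 < p ∧ 0 < r ∧
      B = (if τ then (1 : ℤ) else -1) * (p * r) ∧ A = (r : ℤ) ^ 2 - p ^ 2 - 11 * B ∧
      4 * ((p : ℤ) ^ 2 + r ^ 2) ^ 2 = 4 * (A ^ 2 + 22 * A * B + 125 * B ^ 2) := by
  obtain ⟨w, hw⟩ := hsq
  obtain ⟨i, hi⟩ := hA
  obtain ⟨j, hj⟩ := hB
  set X : ℤ := i + 11 * j + 6 with hX
  have hX' : A + 11 * B = 2 * X := by rw [hi, hj, hX]; ring
  obtain ⟨Z, hZ0, hZ⟩ : ∃ Z : ℤ, 0 ≤ Z ∧ Z ^ 2 = X ^ 2 + B ^ 2 := by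
    obtain ⟨v, hv⟩ : (2 : ℤ) ∣ w := by
      refine Int.prime_two.dvd_of_dvd_pow (n := 2) ⟨2 * (X ^ 2 + B ^ 2), ?_⟩
      rw [sq, ← hw]; linear_combination (A + 11 * B + 2 * X) * hX'
    refine ⟨|v|, abs_nonneg v, ?_⟩
    rw [sq_abs]
    refine mul_left_cancel₀ (show (4 : ℤ) ≠ 0 by norm_num) ?_
    linear_combination (-(w + 2 * v)) * hv - hw + (A + 11 * B + 2 * X) * hX'
  have hB0 : B ≠ 0 := by omega
  have hXB : IsCoprime X B := by
    have : IsCoprime (A + B * 11) B := hAB.add_mul_left_left 11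
    exact this.of_isCoprime_of_dvd_left ⟨2, by linear_combination hX'⟩
  have hprod : (Z - X) * (Z + X) = B ^ 2 := by linear_combination hZ
  have hm : 0 ≤ Z - X ∧ 0 ≤ Z + X := by
    have : X ^ 2 ≤ Z ^ 2 := by nlinarith [sq_nonneg B]
    have := abs_le.1 (abs_le_of_sq_le_sq this hZ0)
    constructor <;> linarith
  have hcop : IsCoprime (Z - X) (Z + X) := by
    rw [Int.isCoprime_iff_gcd_eq_one]
    refine Nat.coprime_of_dvd fun q hq h1 h2 => ?_
    have h1' : (q : ℤ) ∣ Z - X := Int.natCast_dvd.2 h1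
    have h2' : (q : ℤ) ∣ Z + X := Int.natCast_dvd.2 h2
    have hqB : (q : ℤ) ∣ B := by
      refine (Nat.prime_iff_prime_int.1 hq).dvd_of_dvd_pow (n := 2) ?_
      rw [← hprod]; exact h1'.mul_right _
    have hqX : (q : ℤ) ∣ 2 * X := by
      have := dvd_sub h2' h1'
      rwa [show Z + X - (Z - X) = 2 * X by ring] at this
    rcases (Nat.prime_iff_prime_int.1 hq).dvd_or_dvd hqX with h | h
    · have := Int.le_of_dvd (by norm_num) h
      have : q = 2 := by have := hq.two_le; omega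
      subst this
      obtain ⟨c, hc⟩ := hqB
      omega
    · exact (Nat.prime_iff_prime_int.1 hq).not_isUnit (hXB.isUnit_of_dvd' h hqB)
  obtain ⟨p0, hp⟩ := Int.sq_of_isCoprime hcop hprod
  obtain ⟨r0, hr⟩ := Int.sq_of_isCoprime hcop.symm ((mul_comm _ _).trans hprod)
  have hp' : Z - X = (p0.natAbs : ℤ) ^ 2 := by
    rw [Int.natAbs_sq]; rcases hp with h | h
    · exact h
    · nlinarith [sq_nonneg p0]
  have hr' : Z + X = (r0.natAbs : ℤ) ^ 2 := by
    rw [Int.natAbs_sq]; rcases hr with h | h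
    · exact h
    · nlinarith [sq_nonneg r0]
  set p := p0.natAbs
  set r := r0.natAbs
  have hBsq : B ^ 2 = ((p : ℤ) * r) ^ 2 := by rw [← hprod, hp', hr']; ring
  have hpos : 0 < p ∧ 0 < r := by
    constructor <;> refine Nat.pos_of_ne_zero fun h => hB0 ?_ <;>
      exact (pow_eq_zero_iff two_ne_zero).1 (by rw [hBsq, h]; simp)
  have hpr : p.Coprime r := by
    have h' : IsCoprime ((p : ℤ) ^ 2) ((r : ℤ) ^ 2) := hp' ▸ hr' ▸ hcop
    exact Nat.isCoprime_iff_coprime.1 ((IsCoprime.pow_iff two_pos two_pos).1 h')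
  have hA : A = (r : ℤ) ^ 2 - p ^ 2 - 11 * B := by linear_combination hX' + hr' - hp'
  have hlast : 4 * ((p : ℤ) ^ 2 + r ^ 2) ^ 2 = 4 * (A ^ 2 + 22 * A * B + 125 * B ^ 2) := by
    rw [hA]; linear_combination (-16) * hBsq
  rcases sq_eq_sq_iff_eq_or_eq_neg.1 hBsq with h | h
  · exact ⟨p, r, true, hpr, hpos.1, hpos.2, by simp [h], hA, hlast⟩
  · exact ⟨p, r, false, hpr, hpos.1, hpos.2, by simp [h], hA, hlast⟩

end Fermat.Agent.Row42.SwitchB
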